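import Mathlib

/-!
# P-S27 (G2b): analytic lemmas (helper63)

* `norm_le_of_monic_root` : Cauchy's bound for the roots of a monic complex polynomial.
* `exists_implicit_root` : packaged analytic implicit function theorem for `G : ℂ × ℂ → ℂ`.
-/

set_option autoImplicit false

namespace Fermat.Agent.S27x.G2bCov

open Topology Filter Set Polynomial

/-- Cauchy's bound: a root `z` of a monic polynomial satisfies
`‖z‖ ≤ 1 + ∑_{i < deg} ‖coeff i‖`. -/
theorem norm_le_of_monic_root {p : ℂ[X]} (hp : p.Monic) {z : ℂ} (hz : p.eval z = 0) :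
    ‖z‖ ≤ 1 + ∑ i ∈ Finset.range p.natDegree, ‖p.coeff i‖ := by
  have hsum_nonneg : 0 ≤ ∑ i ∈ Finset.range p.natDegree, ‖p.coeff i‖ :=
    Finset.sum_nonneg fun i _ => norm_nonneg _
  by_cases h1 : ‖z‖ ≤ 1
  · linarith
  rw [not_le] at h1
  set n := p.natDegree with hn
  have hn0 : n ≠ 0 := by
    intro h0
    have : p = 1 := by
      have := hp.natDegree_eq_zero.mp (hn ▸ h0)
      exact this
    rw [this, eval_one] at hz
    exact one_ne_zero hz
  have hexp : p.eval z = z ^ n + ∑ i ∈ Finset.range n, p.coeff i * z ^ i := by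
    conv_lhs => rw [hp.as_sum]
    simp [eval_finsetSum, hn]
  rw [hexp] at hz
  have hzn : z ^ n = -∑ i ∈ Finset.range n, p.coeff i * z ^ i := eq_neg_of_add_eq_zero_left hz
  have hle : ‖z‖ ^ n ≤ (∑ i ∈ Finset.range n, ‖p.coeff i‖) * ‖z‖ ^ (n - 1) := by
    calc ‖z‖ ^ n = ‖z ^ n‖ := (norm_pow z n).symm
      _ = ‖∑ i ∈ Finset.range n, p.coeff i * z ^ i‖ := by rw [hzn, norm_neg]
      _ ≤ ∑ i ∈ Finset.range n, ‖p.coeff i * z ^ i‖ := norm_sum_le _ _
      _ ≤ ∑ i ∈ Finset.range n, ‖p.coeff i‖ * ‖z‖ ^ (n - 1) := by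
          refine Finset.sum_le_sum fun i hi => ?_
          rw [norm_mul, norm_pow]
          refine mul_le_mul_of_nonneg_left ?_ (norm_nonneg _)
          exact pow_le_pow_right₀ h1.le (by have := Finset.mem_range.mp hi; omega)
      _ = (∑ i ∈ Finset.range n, ‖p.coeff i‖) * ‖z‖ ^ (n - 1) := (Finset.sum_mul _ _ _).symm
  have hpos : 0 < ‖z‖ ^ (n - 1) := pow_pos (by linarith) _
  have hsplit : ‖z‖ ^ n = ‖z‖ * ‖z‖ ^ (n - 1) := by
    rw [← pow_succ', Nat.sub_add_cancel (Nat.one_le_iff_ne_zero.mpr hn0)]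
  rw [hsplit] at hle
  have := le_of_mul_le_mul_right hle hpos
  linarith

/-- A continuous linear endomorphism of `ℂ` which does not kill `1` is invertible. -/
theorem isInvertible_of_apply_one_ne_zero (L : ℂ →L[ℂ] ℂ) (h : L 1 ≠ 0) : L.IsInvertible := by
  refine ⟨ContinuousLinearEquiv.unitsEquivAut ℂ (Units.mk0 (L 1) h), ?_⟩
  apply ContinuousLinearMap.ext_ring
  simp

/-- Packaged analytic implicit function theorem in two complex variables. -/
theorem exists_implicit_root {G : ℂ × ℂ → ℂ} {a0 w0 : ℂ} (hG : AnalyticAt ℂ G (a0, w0))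
    (h0 : G (a0, w0) = 0) (hd : fderiv ℂ G (a0, w0) (0, 1) ≠ 0) :
    ∃ (r : ℂ → ℂ) (V : Set ℂ) (δ : ℝ), IsOpen V ∧ a0 ∈ V ∧ 0 < δ ∧ r a0 = w0 ∧
      AnalyticOnNhd ℂ r V ∧ (∀ a ∈ V, ‖r a - w0‖ < δ ∧ G (a, r a) = 0) ∧
      ∀ a ∈ V, ∀ w, ‖w - w0‖ < δ → G (a, w) = 0 → w = r a := by
  have cdf : ContDiffAt ℂ ⊤ G (a0, w0) := hG.contDiffAt
  have pn : (⊤ : WithTop ℕ∞) ≠ 0 := by simp
  have hinv : (fderiv ℂ G (a0, w0) ∘L ContinuousLinearMap.inr ℂ ℂ ℂ).IsInvertible := by
    apply isInvertible_of_apply_one_ne_zero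
    simpa using hd
  set r := cdf.implicitFunction pn hinv with hr
  have hr0 : r a0 = w0 := cdf.implicitFunction_apply_self pn hinv
  have hran : AnalyticAt ℂ r a0 := by
    have := cdf.contDiffAt_implicitFunction pn hinv
    exact this.analyticAt
  have hev1 : ∀ᶠ a in 𝓝 a0, G (a, r a) = 0 := by
    have := cdf.eventually_apply_implicitFunction pn hinv
    simpa [h0] using this
  have hev2 : ∀ᶠ v in 𝓝 (a0, w0), G v = 0 ↔ r v.1 = v.2 := by
    have := cdf.eventually_apply_eq_iff_implicitFunction pn hinv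
    simpa [h0] using this
  -- a product neighbourhood on which the zero set is the graph
  rw [nhds_prod_eq, Filter.eventually_prod_iff] at hev2
  obtain ⟨pa, hpa, pw, hpw, hprod⟩ := hev2
  obtain ⟨δ, hδ, hball⟩ := Metric.eventually_nhds_iff_ball.mp hpw
  have hcont : ContinuousAt r a0 := hran.continuousAt
  have hev3 : ∀ᶠ a in 𝓝 a0, ‖r a - w0‖ < δ := by
    have : ∀ᶠ a in 𝓝 a0, r a ∈ Metric.ball w0 δ := by
      apply hcont.eventually_mem
      rw [hr0]
      exact Metric.ball_mem_nhds w0 hδ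
    filter_upwards [this] with a ha
    rwa [Metric.mem_ball, dist_eq_norm] at ha
  have hev4 : ∀ᶠ a in 𝓝 a0, AnalyticAt ℂ r a := hran.eventually_analyticAt
  have hall := hev1.and (hpa.and (hev3.and hev4))
  obtain ⟨V, hVsub, hVopen, haV⟩ := eventually_nhds_iff.mp hall
  refine ⟨r, V, δ, hVopen, haV, hδ, hr0, fun a ha => (hVsub a ha).2.2.2, fun a ha => ?_,
    fun a ha w hw hGw => ?_⟩
  · exact ⟨(hVsub a ha).2.2.1, (hVsub a ha).1⟩
  · have hw' : pw w := hball w (by rwa [Metric.mem_ball, dist_eq_norm])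
    have := (hprod (hVsub a ha).2.1 hw').mp hGw
    exact this.symm

end Fermat.Agent.S27x.G2bCov
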