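/-
P-S27, block G2(b), covering route (helper96 for helper63): chart data of a primitive integral
element.

Context: `K[X] ⊆ L = Frac K[X] ⊆ F`, `F / L` finite, characteristic `0`.

* `eval_resultant_ne_zero` (E-A') : if the specialisation of a monic `P : K[X][Y]` at `X = c` is
  separable, the resultant of `P` and `P'` does not vanish at `c`.
* `exists_chartData` (E-A) : for an integral primitive element `y` of `F / L`, with `P` its minimal
  polynomial over `K[X]` and `D = Res(P, P')`: `P` generates the relations of `y`, `D ≠ 0`, `D` is
  a combination of `P` and `P'`, and `D • b ∈ K[X][y]` for every integral `b`.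
-/
import Mathlib

set_option autoImplicit false

open Polynomial

namespace Fermat.Agent.S27x.G2bCov

section resultant

variable {K : Type*} [Field K] [CharZero K]

/-- (E-A') If `P(c, Y)` is separable then `Res_Y(P, P')` does not vanish at `c`. -/
theorem eval_resultant_ne_zero {P : K[X][X]} (hP : P.Monic) (c : K)
    (h : (P.map (Polynomial.evalRingHom c)).Separable) :
    (Polynomial.resultant P (derivative P)).eval c ≠ 0 := by
  have hm : (P.map (Polynomial.evalRingHom c)).natDegree = P.natDegree := hP.natDegree_map _
  have hn : (derivative (P.map (Polynomial.evalRingHom c))).natDegree =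
      (derivative P).natDegree := by
    rw [natDegree_derivative, natDegree_derivative, hm]
  have h1 : (Polynomial.resultant P (derivative P)).eval c =
      Polynomial.resultant (P.map (Polynomial.evalRingHom c))
        (derivative (P.map (Polynomial.evalRingHom c))) := by
    rw [← Polynomial.coe_evalRingHom, ← Polynomial.resultant_map_map, ← derivative_map, hm, hn]
  rw [h1, Ne, Polynomial.resultant_eq_zero_iff]
  exact fun h2 => h2.2 h

end resultant

section chart

variable {K L F : Type*} [Field K] [CharZero K] [Field L] [Field F] [Algebra K[X] L]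
  [IsFractionRing K[X] L] [Algebra L F] [Algebra K[X] F] [IsScalarTower K[X] L F]
  [FiniteDimensional L F]

/-- (E-A) Chart data attached to an integral primitive element `y` of `F / L`. -/
theorem exists_chartData (y : F) (hy : IsIntegral K[X] y)
    (hprim : IntermediateField.adjoin L {y} = ⊤) :
    (minpoly K[X] y).Monic ∧ aeval y (minpoly K[X] y) = 0 ∧
      (minpoly K[X] y).natDegree = Module.finrank L F ∧
      (∀ R : K[X][X], aeval y R = 0 → minpoly K[X] y ∣ R) ∧
      Polynomial.resultant (minpoly K[X] y) (derivative (minpoly K[X] y)) ≠ 0 ∧
      (∃ U V : K[X][X], U * minpoly K[X] y + V * derivative (minpoly K[X] y) =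
        C (Polynomial.resultant (minpoly K[X] y) (derivative (minpoly K[X] y)))) ∧
      ∀ b : F, IsIntegral K[X] b → ∃ Q : K[X][X], aeval y Q =
        algebraMap K[X] F
          (Polynomial.resultant (minpoly K[X] y) (derivative (minpoly K[X] y))) * b := by
  classical
  set P := minpoly K[X] y with hPdef
  have hinjL : Function.Injective (algebraMap K[X] L) := IsFractionRing.injective K[X] L
  have hinj : Function.Injective (algebraMap K[X] F) := by
    rw [IsScalarTower.algebraMap_eq K[X] L F]
    exact (algebraMap L F).injective.comp hinjL
  have : Module.IsTorsionFree K[X] F := Module.isTorsionFree_iff_algebraMap_injective.2 hinj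
  have : CharZero L := charZero_of_injective_algebraMap hinjL
  have hmonic : P.Monic := minpoly.monic hy
  have hroot : aeval y P = 0 := minpoly.aeval _ _
  have hmin : minpoly L y = P.map (algebraMap K[X] L) :=
    minpoly.isIntegrallyClosed_eq_field_fractions' L hy
  have hyL : IsIntegral L y := hy.tower_top
  have hdeg : P.natDegree = Module.finrank L F := by
    rw [← hmonic.natDegree_map (algebraMap K[X] L), ← hmin, ← IntermediateField.adjoin.finrank hyL,
      hprim, IntermediateField.finrank_top']
  have hdvd : ∀ R : K[X][X], aeval y R = 0 → P ∣ R := fun R hR =>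
    minpoly.isIntegrallyClosed_dvd hy hR
  have hsep : (P.map (algebraMap K[X] L)).Separable := hmin ▸ (minpoly.irreducible hyL).separable
  set D := Polynomial.resultant P (derivative P) with hD
  have hDL : algebraMap K[X] L D = Polynomial.resultant (P.map (algebraMap K[X] L))
      (derivative (P.map (algebraMap K[X] L))) := by
    have hm : (P.map (algebraMap K[X] L)).natDegree = P.natDegree := hmonic.natDegree_map _
    have hn : (derivative (P.map (algebraMap K[X] L))).natDegree = (derivative P).natDegree := by
      rw [natDegree_derivative, natDegree_derivative, hm]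
    rw [hD, ← Polynomial.resultant_map_map, ← derivative_map, hm, hn]
  have hD0 : D ≠ 0 := by
    intro h0
    rw [h0, map_zero] at hDL
    exact (Polynomial.resultant_eq_zero_iff.1 hDL.symm).2 hsep
  have hpos : P.natDegree ≠ 0 := (minpoly.natDegree_pos hy).ne'
  obtain ⟨p, q, -, -, hpq⟩ :=
    Polynomial.exists_mul_add_mul_eq_C_resultant P (derivative P) le_rfl le_rfl (Or.inl hpos)
  refine ⟨hmonic, hroot, hdeg, hdvd, hD0, ⟨p, q, by rw [← hpq]; ring⟩, ?_⟩
  intro b hb
  have hadj : Algebra.adjoin L {y} = ⊤ := by
    rw [← IntermediateField.adjoin_simple_toSubalgebra_of_isAlgebraic hyL.isAlgebraic, hprim,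
      IntermediateField.top_toSubalgebra]
  have hdual := traceForm_dualSubmodule_adjoin K[X] L hadj hy
  have hbmem : b ∈ (Algebra.traceForm L F).dualSubmodule
      (Subalgebra.toSubmodule (Algebra.adjoin K[X] {y})) := by
    rw [LinearMap.BilinForm.mem_dualSubmodule]
    intro z hz
    have hzint : IsIntegral K[X] z := by
      have hle : Algebra.adjoin K[X] {y} ≤ integralClosure K[X] F :=
        Algebra.adjoin_le (Set.singleton_subset_iff.2 hy)
      exact hle hz
    have htr : IsIntegral K[X] (Algebra.trace L F (b * z)) :=
      Algebra.isIntegral_trace (hb.mul hzint)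
    obtain ⟨a, ha⟩ := IsIntegrallyClosed.isIntegral_iff.1 htr
    rw [Algebra.traceForm_apply, Submodule.mem_one]
    exact ⟨a, ha⟩
  rw [hdual] at hbmem
  have hne : aeval y (derivative (minpoly L y)) ≠ 0 :=
    (minpoly.irreducible hyL).separable.aeval_derivative_ne_zero (minpoly.aeval _ _)
  rw [Submodule.mem_smul_iff_inv_mul_mem (inv_ne_zero hne), inv_inv] at hbmem
  have hder : aeval y (derivative (minpoly L y)) = aeval y (derivative P) := by
    rw [hmin, derivative_map, aeval_map_algebraMap]
  rw [hder, Subalgebra.mem_toSubmodule, Algebra.adjoin_singleton_eq_range_aeval] at hbmem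
  obtain ⟨S, hS⟩ := hbmem
  refine ⟨q * S, ?_⟩
  have h2 := congrArg (aeval y) hpq
  rw [map_add, map_mul, map_mul, hroot, zero_mul, zero_add, aeval_C] at h2
  rw [map_mul, ← h2]
  have hS' : aeval y S = aeval y (derivative P) * b := hS
  rw [hS']
  ring

end chart

end Fermat.Agent.S27x.G2bCov
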