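import Mathlib

/-!
# P-S27 (G2b): the space of complex points of a `K`-algebra (helper63)

For a commutative ring `B` which is an algebra over a field `K` with a fixed embedding
`ι : K →+* ℂ`, `Pt ι B` is the set of ring homomorphisms `χ : B →+* ℂ` restricting to `ι` on `K`,
with the topology of pointwise convergence.  It is a closed subspace of `B → ℂ`.
-/

set_option autoImplicit false

namespace Fermat.Agent.S27x.G2bCov

open Topology Filter Set

variable {K B : Type*} [Field K] [CommRing B] [Algebra K B] (ι : K →+* ℂ)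

/-- The complex points of `B` over `ι`. -/
def Pt (B : Type*) [CommRing B] [Algebra K B] : Type _ :=
  {χ : B →+* ℂ // ∀ k : K, χ (algebraMap K B k) = ι k}

namespace Pt

variable {ι}

/-- The underlying function of a point. -/
noncomputable def toFun' (χ : Pt ι B) : B → ℂ := fun b => χ.1 b

noncomputable instance : TopologicalSpace (Pt ι B) := TopologicalSpace.induced toFun' inferInstance

theorem toFun'_injective : Function.Injective (toFun' : Pt ι B → B → ℂ) := by
  intro χ χ' h
  apply Subtype.ext
  ext b
  exact congrFun h b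

theorem isInducing_toFun' : IsInducing (toFun' : Pt ι B → B → ℂ) := ⟨rfl⟩

theorem isEmbedding_toFun' : IsEmbedding (toFun' : Pt ι B → B → ℂ) :=
  ⟨isInducing_toFun', toFun'_injective⟩

instance : T2Space (Pt ι B) := isEmbedding_toFun'.t2Space

theorem continuous_eval (b : B) : Continuous fun χ : Pt ι B => χ.1 b :=
  (continuous_apply b).comp isInducing_toFun'.continuous

theorem continuous_iff {Z : Type*} [TopologicalSpace Z] {f : Z → Pt ι B} :
    Continuous f ↔ ∀ b : B, Continuous fun z => (f z).1 b := by
  rw [isInducing_toFun'.continuous_iff, continuous_pi_iff]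
  rfl

theorem continuousAt_iff {Z : Type*} [TopologicalSpace Z] {f : Z → Pt ι B} {z : Z} :
    ContinuousAt f z ↔ ∀ b : B, ContinuousAt (fun z => (f z).1 b) z := by
  rw [isInducing_toFun'.continuousAt_iff, continuousAt_pi]
  rfl

theorem continuousOn_iff {Z : Type*} [TopologicalSpace Z] {f : Z → Pt ι B} {s : Set Z} :
    ContinuousOn f s ↔ ∀ b : B, ContinuousOn (fun z => (f z).1 b) s := by
  rw [isInducing_toFun'.continuousOn_iff, continuousOn_pi]
  rfl

/-- The range of `Pt ι B` inside `B → ℂ`. -/
theorem range_toFun' : range (toFun' : Pt ι B → B → ℂ) =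
    {f | f 1 = 1 ∧ (∀ x y, f (x * y) = f x * f y) ∧ (∀ x y, f (x + y) = f x + f y) ∧
      ∀ k : K, f (algebraMap K B k) = ι k} := by
  ext f
  constructor
  · rintro ⟨χ, rfl⟩
    exact ⟨χ.1.map_one, χ.1.map_mul, χ.1.map_add, χ.2⟩
  · rintro ⟨h1, hm, ha, hk⟩
    have h0 : f 0 = 0 := by
      have := ha 0 0
      rw [add_zero] at this
      exact left_eq_add.mp this
    exact ⟨⟨⟨⟨⟨f, h1⟩, hm⟩, h0, ha⟩, hk⟩, rfl⟩

theorem isClosed_range_toFun' : IsClosed (range (toFun' : Pt ι B → B → ℂ)) := by
  rw [range_toFun']
  have e : {f : B → ℂ | f 1 = 1 ∧ (∀ x y, f (x * y) = f x * f y) ∧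
      (∀ x y, f (x + y) = f x + f y) ∧ ∀ k : K, f (algebraMap K B k) = ι k} =
      {f | f 1 = 1} ∩ ((⋂ x, ⋂ y, {f | f (x * y) = f x * f y}) ∩
        ((⋂ x, ⋂ y, {f | f (x + y) = f x + f y}) ∩ ⋂ k : K, {f | f (algebraMap K B k) = ι k})) := by
    ext f
    simp only [mem_ofPred_eq, mem_inter_iff, mem_iInter]
  rw [e]
  refine (isClosed_eq (continuous_apply _) continuous_const).inter
    ((isClosed_iInter fun x => isClosed_iInter fun y => ?_).inter
      ((isClosed_iInter fun x => isClosed_iInter fun y => ?_).inter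
        (isClosed_iInter fun k => ?_)))
  · exact isClosed_eq (continuous_apply (x * y)) ((continuous_apply x).mul (continuous_apply y))
  · exact isClosed_eq (continuous_apply (x + y)) ((continuous_apply x).add (continuous_apply y))
  · exact isClosed_eq (continuous_apply _) continuous_const

theorem isClosedEmbedding_toFun' : IsClosedEmbedding (toFun' : Pt ι B → B → ℂ) :=
  ⟨isEmbedding_toFun', isClosed_range_toFun'⟩

/-- A set of points on which every coordinate is bounded and which is closed is compact. -/
theorem isCompact_of_bounded {S : Set (Pt ι B)} (hS : IsClosed S) (M : B → ℝ)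
    (hM : ∀ χ ∈ S, ∀ b, ‖χ.1 b‖ ≤ M b) : IsCompact S := by
  rw [isClosedEmbedding_toFun'.isCompact_iff]
  have hcl : IsClosed (toFun' '' S) := isClosedEmbedding_toFun'.isClosedMap S hS
  refine IsCompact.of_isClosed_subset
    (isCompact_univ_pi fun b => isCompact_closedBall (0 : ℂ) (M b)) hcl ?_
  rintro f ⟨χ, hχ, rfl⟩ b -
  rw [mem_closedBall_zero_iff]
  exact hM χ hχ b

end Pt

end Fermat.Agent.S27x.G2bCov
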