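import Mathlib
import Fermat.Agent.S27x.G2bCov.Points
import Fermat.Agent.S27x.G2bCov.Analytic

/-!
# P-S27 (G2b): the abstract lifting theorem (helper63)

`Setup ι β U ψ` axiomatises a "finite étale algebra over an open subset `U ⊆ ℂ`":
`B` is integral over a ring `A` of analytic functions on `U` (`ψ a : A →+* ℂ` is evaluation at `a`),
the structure map `p χ = χ β` sends the complex points `Pt ι B` of `B` into `U`, and around each
point of `U` there is a primitive element `y` with simple roots, generating `B` up to a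
denominator `D` which does not vanish at that point.

Main results:
* `Setup.isCoveringMap` : `p : Pt ι B → U` is a covering map;
* `Setup.exists_lift` : every holomorphic `t : ℍ → U` lifts to a ring homomorphism
  `Φ : B →+* (ℍ → ℂ)` with holomorphic values, `Φ β = t`, through any prescribed point.
-/

set_option autoImplicit false

namespace Fermat.Agent.S27x.G2bCov

open Topology Filter Set Polynomial

variable {K A B : Type*} [Field K] [CommRing A] [CommRing B] [Algebra K B] [Algebra A B]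

/-- Axioms of a finite étale algebra over an open subset of `ℂ`, in elementary terms. -/
structure Setup (ι : K →+* ℂ) (β : B) (U : Set ℂ) (ψ : ℂ → A →+* ℂ) : Prop where
  isOpen_U : IsOpen U
  diff : ∀ c : A, DifferentiableOn ℂ (fun a => ψ a c) U
  compat : ∀ (χ : Pt ι B) (c : A), χ.1 (algebraMap A B c) = ψ (χ.1 β) c
  mem_U : ∀ χ : Pt ι B, χ.1 β ∈ U
  integral : ∀ b : B, ∃ (p : A[X]) (u : A), p.Monic ∧ (∀ a ∈ U, ψ a u ≠ 0) ∧
    aeval (algebraMap A B u * b) p = 0
  chart : ∀ a0 ∈ U, ∃ (y : B) (P : A[X]) (D : A), P.Monic ∧ aeval y P = 0 ∧ ψ a0 D ≠ 0 ∧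
    (∀ a ∈ U, ψ a D ≠ 0 → ∀ w, (P.map (ψ a)).eval w = 0 →
      (P.map (ψ a)).derivative.eval w ≠ 0) ∧
    (∀ b : B, ∃ (Q : A[X]) (E : A), (∀ a ∈ U, ψ a D ≠ 0 → ψ a E ≠ 0) ∧
      aeval y Q = algebraMap A B E * b) ∧
    (∀ a ∈ U, ψ a D ≠ 0 → ∀ w, (P.map (ψ a)).eval w = 0 →
      ∃ χ : Pt ι B, χ.1 β = a ∧ χ.1 y = w)

/-- The two-variable function `(a, w) ↦ Q_a(w)` attached to `Q : A[X]`. -/
noncomputable def polyFun (ψ : ℂ → A →+* ℂ) (Q : A[X]) (v : ℂ × ℂ) : ℂ := (Q.map (ψ v.1)).eval v.2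

theorem polyFun_eq_sum (ψ : ℂ → A →+* ℂ) (Q : A[X]) (v : ℂ × ℂ) :
    polyFun ψ Q v = ∑ i ∈ Q.support, ψ v.1 (Q.coeff i) * v.2 ^ i := by
  rw [polyFun, eval_map, eval₂_eq_sum, Polynomial.sum_def]

namespace Setup

variable {ι : K →+* ℂ} {β : B} {U : Set ℂ} {ψ : ℂ → A →+* ℂ} (h : Setup ι β U ψ)
include h

theorem analyticAt_coeff (c : A) {a : ℂ} (ha : a ∈ U) : AnalyticAt ℂ (fun a => ψ a c) a :=
  ((h.diff c).analyticOnNhd h.isOpen_U) a ha

/-- `χ (Q(z)) = Q_{χ β}(χ z)`. -/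
theorem apply_aeval (χ : Pt ι B) (Q : A[X]) (z : B) :
    χ.1 (aeval z Q) = polyFun ψ Q (χ.1 β, χ.1 z) := by
  have hcomp : χ.1.comp (algebraMap A B) = ψ (χ.1 β) := RingHom.ext fun c => h.compat χ c
  rw [polyFun, aeval_def, hom_eval₂, hcomp, eval_map]

theorem analyticAt_polyFun (Q : A[X]) {a : ℂ} (ha : a ∈ U) (w : ℂ) :
    AnalyticAt ℂ (polyFun ψ Q) (a, w) := by
  have e : polyFun ψ Q = fun v : ℂ × ℂ => ∑ i ∈ Q.support, ψ v.1 (Q.coeff i) * v.2 ^ i :=
    funext fun v => polyFun_eq_sum ψ Q v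
  rw [e]
  refine Finset.analyticAt_fun_sum _ fun i _ => ?_
  refine AnalyticAt.mul ?_ (analyticAt_snd.pow i)
  exact (h.analyticAt_coeff (Q.coeff i) ha).comp_of_eq analyticAt_fst rfl

/-- The partial derivative of `polyFun` in the second variable. -/
theorem fderiv_polyFun (Q : A[X]) {a : ℂ} (ha : a ∈ U) (w : ℂ) :
    fderiv ℂ (polyFun ψ Q) (a, w) (0, 1) = (Q.map (ψ a)).derivative.eval w := by
  have hdiff : DifferentiableAt ℂ (polyFun ψ Q) (a, w) :=
    (h.analyticAt_polyFun Q ha w).differentiableAt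
  have h1 : HasDerivAt (fun s : ℂ => (a, s)) ((0 : ℂ), (1 : ℂ)) w :=
    (hasDerivAt_const w a).prodMk (hasDerivAt_id w)
  have h2 := hdiff.hasFDerivAt.comp_hasDerivAt w h1
  have h3 : HasDerivAt (fun s : ℂ => (Q.map (ψ a)).eval s)
      ((Q.map (ψ a)).derivative.eval w) w := (Q.map (ψ a)).hasDerivAt w
  exact h2.unique h3

/-! ### The structure map and its properness -/

/-- The structure map `p : Pt ι B → U`, `χ ↦ χ β`. -/
noncomputable def proj (χ : Pt ι B) : U := ⟨χ.1 β, h.mem_U χ⟩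

@[simp] theorem proj_coe (χ : Pt ι B) : (h.proj χ : ℂ) = χ.1 β := rfl

theorem continuous_proj : Continuous h.proj :=
  (Pt.continuous_eval β).subtype_mk _

/-- Integrality bound: every coordinate of a point is bounded in terms of its image in `U`. -/
theorem exists_bound (b : B) :
    ∃ M : ℂ → ℝ, ContinuousOn M U ∧ ∀ χ : Pt ι B, ‖χ.1 b‖ ≤ M (χ.1 β) := by
  obtain ⟨p, u, hp, hu, hpb⟩ := h.integral b
  refine ⟨fun a => (1 + ∑ i ∈ Finset.range p.natDegree, ‖ψ a (p.coeff i)‖) / ‖ψ a u‖, ?_,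
    fun χ => ?_⟩
  · refine ContinuousOn.div ?_ (h.diff u).continuousOn.norm fun a ha => ?_
    · refine continuousOn_const.add (continuousOn_finsetSum _ fun i _ => ?_)
      exact (h.diff (p.coeff i)).continuousOn.norm
    · exact norm_ne_zero_iff.mpr (hu a ha)
  · have hu0 : ψ (χ.1 β) u ≠ 0 := hu _ (h.mem_U χ)
    have h0 : (p.map (ψ (χ.1 β))).eval (χ.1 (algebraMap A B u * b)) = 0 := by
      have := h.apply_aeval χ p (algebraMap A B u * b)
      rw [hpb, map_zero] at this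
      exact this.symm
    have hm : (p.map (ψ (χ.1 β))).Monic := hp.map _
    have := norm_le_of_monic_root hm h0
    rw [hp.natDegree_map, map_mul, h.compat, norm_mul] at this
    rw [le_div_iff₀ (norm_pos_iff.mpr hu0), mul_comm]
    simpa [coeff_map] using this

theorem isProperMap_proj : IsProperMap h.proj := by
  rw [isProperMap_iff_isCompact_preimage]
  refine ⟨h.continuous_proj, fun Kc hKc => ?_⟩
  have hK' : IsCompact ((↑) '' Kc : Set ℂ) := hKc.image continuous_subtype_val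
  have hK'U : ((↑) '' Kc : Set ℂ) ⊆ U := by
    rintro _ ⟨x, -, rfl⟩
    exact x.2
  choose M hMc hM using h.exists_bound
  have hC : ∀ b, ∃ C : ℝ, ∀ a ∈ ((↑) '' Kc : Set ℂ), ‖M b a‖ ≤ C := fun b =>
    hK'.exists_bound_of_continuousOn ((hMc b).mono hK'U)
  choose C hC using hC
  refine Pt.isCompact_of_bounded (hKc.isClosed.preimage h.continuous_proj) C fun χ hχ b => ?_
  have hmem : χ.1 β ∈ ((↑) '' Kc : Set ℂ) := ⟨h.proj χ, hχ, rfl⟩
  calc ‖χ.1 b‖ ≤ M b (χ.1 β) := hM b χ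
    _ ≤ ‖M b (χ.1 β)‖ := le_abs_self _
    _ ≤ C b := hC b _ hmem

theorem isClosedMap_proj : IsClosedMap h.proj := h.isProperMap_proj.isClosedMap

/-! ### Local sections -/

/-- Two points with the same image `a` (where `D` does not vanish) and the same `y`-coordinate
agree. -/
theorem eq_of_chart {y : B} {D : A}
    (hQ : ∀ b : B, ∃ (Q : A[X]) (E : A), (∀ a ∈ U, ψ a D ≠ 0 → ψ a E ≠ 0) ∧
      aeval y Q = algebraMap A B E * b)
    {χ χ' : Pt ι B} (hβ : χ.1 β = χ'.1 β) (hy : χ.1 y = χ'.1 y) (hD : ψ (χ.1 β) D ≠ 0) :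
    χ = χ' := by
  apply Subtype.ext
  ext b
  obtain ⟨Q, E, hE, hQb⟩ := hQ b
  have e1 := h.apply_aeval χ Q y
  have e2 := h.apply_aeval χ' Q y
  rw [hQb, map_mul, h.compat] at e1 e2
  rw [← hβ, ← hy, ← e1] at e2
  exact (mul_left_cancel₀ (hE _ (h.mem_U χ) hD) e2).symm

/-- Around every point `χ0` the structure map has an analytic local section through `χ0`
which is a local inverse. -/
theorem exists_local_section (χ0 : Pt ι B) :
    ∃ (N : Set (Pt ι B)) (V : Set ℂ) (s : ℂ → Pt ι B), IsOpen N ∧ χ0 ∈ N ∧ IsOpen V ∧ V ⊆ U ∧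
      (∀ χ ∈ N, χ.1 β ∈ V ∧ s (χ.1 β) = χ) ∧ (∀ a ∈ V, s a ∈ N ∧ (s a).1 β = a) ∧
      ∀ b : B, AnalyticOnNhd ℂ (fun a => (s a).1 b) V := by
  classical
  have ha0 : χ0.1 β ∈ U := h.mem_U χ0
  obtain ⟨y, P, D, -, hPy, hD0, hsimple, hQ, hex⟩ := h.chart _ ha0
  set a0 := χ0.1 β with ha0def
  set w0 := χ0.1 y with hw0def
  have hG0 : polyFun ψ P (a0, w0) = 0 := by
    have := h.apply_aeval χ0 P y
    rw [hPy, map_zero] at this
    exact this.symm
  have hGd : fderiv ℂ (polyFun ψ P) (a0, w0) (0, 1) ≠ 0 := by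
    rw [h.fderiv_polyFun P ha0 w0]
    exact hsimple a0 ha0 hD0 w0 hG0
  obtain ⟨r, V1, δ, hV1o, ha0V1, hδ, hr0, hran, hr, huniq⟩ :=
    exists_implicit_root (h.analyticAt_polyFun P ha0 w0) hG0 hGd
  have hVDo : IsOpen (U ∩ (fun a => ψ a D) ⁻¹' {0}ᶜ) :=
    (h.diff D).continuousOn.isOpen_inter_preimage h.isOpen_U isOpen_compl_singleton
  set V : Set ℂ := V1 ∩ (U ∩ (fun a => ψ a D) ⁻¹' {0}ᶜ) with hVdef
  have hVo : IsOpen V := hV1o.inter hVDo
  have hVU : V ⊆ U := fun a ha => ha.2.1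
  have hVD : ∀ a ∈ V, ψ a D ≠ 0 := fun a ha => ha.2.2
  have hex' : ∀ a ∈ V, ∃ χ : Pt ι B, χ.1 β = a ∧ χ.1 y = r a := fun a ha =>
    hex a (hVU ha) (hVD a ha) (r a) (hr a ha.1).2
  set s : ℂ → Pt ι B := fun a => if ha : a ∈ V then Classical.choose (hex' a ha) else χ0 with hs
  have hsβ : ∀ a ∈ V, (s a).1 β = a := fun a ha => by
    simp only [hs, dif_pos ha]
    exact (Classical.choose_spec (hex' a ha)).1
  have hsy : ∀ a ∈ V, (s a).1 y = r a := fun a ha => by
    simp only [hs, dif_pos ha]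
    exact (Classical.choose_spec (hex' a ha)).2
  set N : Set (Pt ι B) := {χ | χ.1 β ∈ V ∧ ‖χ.1 y - w0‖ < δ} with hN
  have hNo : IsOpen N := by
    have h1 : IsOpen {χ : Pt ι B | χ.1 β ∈ V} := hVo.preimage (Pt.continuous_eval β)
    have h2 : IsOpen {χ : Pt ι B | ‖χ.1 y - w0‖ < δ} :=
      isOpen_lt ((Pt.continuous_eval y).sub continuous_const).norm continuous_const
    exact h1.inter h2
  refine ⟨N, V, s, hNo, ⟨⟨ha0V1, ha0, hD0⟩, by simpa [hw0def] using hδ⟩, hVo, hVU, ?_, ?_, ?_⟩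
  · rintro χ ⟨hχV, hχδ⟩
    refine ⟨hχV, ?_⟩
    have hGχ : polyFun ψ P (χ.1 β, χ.1 y) = 0 := by
      have := h.apply_aeval χ P y
      rw [hPy, map_zero] at this
      exact this.symm
    have hχy : χ.1 y = r (χ.1 β) := huniq _ hχV.1 _ hχδ hGχ
    refine h.eq_of_chart hQ ?_ ?_ ?_
    · rw [hsβ _ hχV]
    · rw [hsy _ hχV, hχy]
    · rw [hsβ _ hχV]
      exact hVD _ hχV
  · intro a ha
    refine ⟨⟨?_, ?_⟩, hsβ a ha⟩
    · rw [hsβ a ha]
      exact ha
    · rw [hsy a ha]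
      exact (hr a ha.1).1
  · intro b
    obtain ⟨Q, E, hE, hQb⟩ := hQ b
    have hVE : ∀ a ∈ V, ψ a E ≠ 0 := fun a ha => hE a (hVU ha) (hVD a ha)
    have hformula : ∀ a ∈ V, (s a).1 b = polyFun ψ Q (a, r a) / ψ a E := by
      intro a ha
      have e1 := h.apply_aeval (s a) Q y
      rw [hQb, map_mul, h.compat, hsβ a ha, hsy a ha] at e1
      rw [← e1, mul_div_cancel_left₀ _ (hVE a ha)]
    have han : AnalyticOnNhd ℂ (fun a => polyFun ψ Q (a, r a) / ψ a E) V := by
      intro a ha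
      have h1 : AnalyticAt ℂ (fun a => polyFun ψ Q (a, r a)) a :=
        (h.analyticAt_polyFun Q (hVU ha) (r a)).comp_of_eq
          (analyticAt_id.prod (hran a ha.1)) rfl
      exact h1.div (h.analyticAt_coeff E (hVU ha)) (hVE a ha)
    exact han.congr hVo fun a ha => (hformula a ha).symm

/-! ### The structure map is a covering map -/

theorem isLocalHomeomorph_proj : IsLocalHomeomorph h.proj := by
  refine IsLocalHomeomorph.mk _ fun χ0 => ?_
  obtain ⟨N, V, s, hNo, hχ0, hVo, -, hN, hV, han⟩ := h.exists_local_section χ0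
  refine ⟨{ toFun := h.proj
            invFun := fun x => s x.1
            source := N
            target := {x : U | x.1 ∈ V}
            map_source' := fun χ hχ => (hN χ hχ).1
            map_target' := fun x hx => (hV x.1 hx).1
            left_inv' := fun χ hχ => (hN χ hχ).2
            right_inv' := fun x hx => Subtype.ext (hV x.1 hx).2
            open_source := hNo
            open_target := hVo.preimage continuous_subtype_val
            continuousOn_toFun := h.continuous_proj.continuousOn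
            continuousOn_invFun := ?_ }, hχ0, fun _ _ => rfl⟩
  rw [Pt.continuousOn_iff]
  intro b
  exact (han b).continuousOn.comp continuous_subtype_val.continuousOn fun x hx => hx

theorem finite_fiber (x : U) : (h.proj ⁻¹' {x}).Finite := by
  obtain ⟨y, P, D, hPm, hPy, hD0, -, hQ, -⟩ := h.chart x.1 x.2
  have hP0 : P.map (ψ x.1) ≠ 0 := (hPm.map _).ne_zero
  refine Set.Finite.of_injOn (f := fun χ : Pt ι B => χ.1 y)
    (t := {w | (P.map (ψ x.1)).IsRoot w}) ?_ ?_ (Polynomial.finite_setOfPred_isRoot hP0)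
  · intro χ hχ
    have hχβ : χ.1 β = x.1 := congrArg Subtype.val hχ
    have := h.apply_aeval χ P y
    rw [hPy, map_zero, hχβ] at this
    exact this.symm
  · intro χ hχ χ' hχ' hy
    have hχβ : χ.1 β = x.1 := congrArg Subtype.val hχ
    have hχ'β : χ'.1 β = x.1 := congrArg Subtype.val hχ'
    exact h.eq_of_chart hQ (hχβ.trans hχ'β.symm) hy (by rw [hχβ]; exact hD0)

theorem isCoveringMap_proj : IsCoveringMap h.proj := by
  rw [isCoveringMap_iff_isCoveringMapOn_univ]
  refine h.isClosedMap_proj.isCoveringMapOn_of_isLocalHomeomorphOn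
    (fun x _ => h.finite_fiber x) ?_
  rw [preimage_univ, ← isLocalHomeomorph_iff_isLocalHomeomorphOn_univ]
  exact h.isLocalHomeomorph_proj

theorem isCoveringMapOn : IsCoveringMapOn (fun χ : Pt ι B => χ.1 β) U :=
  IsCoveringMapOn.of_isCoveringMap_subtype h.isOpen_U h.mem_U h.isCoveringMap_proj

/-! ### Lifting holomorphic maps from the upper half-plane -/

open UpperHalfPlane
open scoped Manifold

/-- **Lifting theorem.**  Every holomorphic map `t : ℍ → U` lifts, through any prescribed point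
`χ0` over `t τ0`, to a ring homomorphism `Φ : B →+* (ℍ → ℂ)` with holomorphic values such that
`Φ β = t` and `Φ` is `ι` on constants. -/
theorem exists_lift (t : ℍ → ℂ) (ht : MDiff t) (htU : ∀ τ, t τ ∈ U) (τ0 : ℍ)
    (χ0 : Pt ι B) (h0 : χ0.1 β = t τ0) :
    ∃ Φ : B →+* (ℍ → ℂ), (∀ b, MDiff (Φ b)) ∧ Φ β = t ∧
      (∀ k : K, Φ (algebraMap K B k) = fun _ => ι k) ∧ (∀ b, Φ b τ0 = χ0.1 b) ∧
      ∀ τ, ∃ χ : Pt ι B, ∀ b, Φ b τ = χ.1 b := by
  let tc : C(ℍ, ℂ) := ⟨t, ht.continuous⟩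
  obtain ⟨T, ⟨hT0, hTp⟩, -⟩ :=
    h.isCoveringMapOn.existsUnique_continuousMap_lifts tc (a₀ := τ0) (e₀ := χ0) h0 htU
  have hTβ : ∀ τ, (T τ).1 β = t τ := fun τ => congrFun hTp τ
  let Φ : B →+* (ℍ → ℂ) :=
    { toFun := fun b τ => (T τ).1 b
      map_one' := funext fun τ => (T τ).1.map_one
      map_mul' := fun x y => funext fun τ => (T τ).1.map_mul x y
      map_zero' := funext fun τ => (T τ).1.map_zero
      map_add' := fun x y => funext fun τ => (T τ).1.map_add x y }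
  refine ⟨Φ, fun b τ1 => ?_, funext hTβ, fun k => funext fun τ => (T τ).2 k, fun b => ?_,
    fun τ => ⟨T τ, fun b => rfl⟩⟩
  · obtain ⟨N, V, s, hNo, hχ1, hVo, -, hN, hV, han⟩ := h.exists_local_section (T τ1)
    have hev : ∀ᶠ τ in 𝓝 τ1, T τ ∈ N := T.continuous.continuousAt.eventually_mem (hNo.mem_nhds hχ1)
    have heq : (Φ b) =ᶠ[𝓝 τ1] fun τ => (fun a => (s a).1 b) (t τ) := by
      filter_upwards [hev] with τ hτ
      have := (hN _ hτ).2
      rw [hTβ τ] at this
      show (T τ).1 b = (s (t τ)).1 b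
      rw [this]
    have htV : t τ1 ∈ V := by
      rw [← hTβ τ1]
      exact (hN _ hχ1).1
    have hd : DifferentiableAt ℂ (fun a => (s a).1 b) (t τ1) := (han b _ htV).differentiableAt
    exact (hd.comp_mdifferentiableAt (ht τ1)).congr_of_eventuallyEq heq
  · show (T τ0).1 b = χ0.1 b
    rw [hT0]

end Setup

end Fermat.Agent.S27x.G2bCov
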