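import Mathlib

/-!
# P-S27 (G2b, covering route): points of a locally monogenic algebra from roots (helper63)

`exists_point`: let `B` be an `A`-algebra, `y : B` with `P ∈ A[X]` generating the kernel of
`A[X] → B`, `X ↦ y`, and let `φ : A →+* ℂ`, `w` a root of `φ(P)`.  If every `b : B` can be written
`E • b = Q(y)` with `φ E ≠ 0`, then there is a ring homomorphism `χ : B →+* ℂ` extending `φ` with
`χ y = w`.
-/

set_option autoImplicit false

namespace Fermat.Agent.S27x.G2bCov

open Polynomial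

section

variable {A B : Type*} [CommRing A] [CommRing B] [Algebra A B] (φ : A →+* ℂ) (y : B) (w : ℂ)

/-- `z` is the value at `b` computed from a presentation `E • b = Q(y)`. -/
def IsValAt (b : B) (z : ℂ) : Prop :=
  ∃ (Q : A[X]) (E : A), φ E ≠ 0 ∧ aeval y Q = algebraMap A B E * b ∧
    z = (Q.map φ).eval w / φ E

variable {φ y w}

theorem IsValAt.unique {P : A[X]} (hker : ∀ R : A[X], aeval y R = 0 → P ∣ R)
    (hw : (P.map φ).eval w = 0) {b : B} {z z' : ℂ}
    (h : IsValAt φ y w b z) (h' : IsValAt φ y w b z') : z = z' := by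
  obtain ⟨Q, E, hE, hQ, rfl⟩ := h
  obtain ⟨Q', E', hE', hQ', rfl⟩ := h'
  have h0 : aeval y (C E' * Q - C E * Q') = 0 := by
    rw [map_sub, map_mul, map_mul, aeval_C, aeval_C, hQ, hQ']
    ring
  obtain ⟨S, hS⟩ := hker _ h0
  have h1 : ((C E' * Q - C E * Q').map φ).eval w = 0 := by
    rw [hS, Polynomial.map_mul, eval_mul, hw, zero_mul]
  rw [Polynomial.map_sub, Polynomial.map_mul, Polynomial.map_mul, map_C, map_C, eval_sub, eval_mul,
    eval_mul, eval_C, eval_C] at h1
  rw [div_eq_div_iff hE hE']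
  linear_combination h1

theorem IsValAt.add {b b' : B} {z z' : ℂ} (h : IsValAt φ y w b z) (h' : IsValAt φ y w b' z') :
    IsValAt φ y w (b + b') (z + z') := by
  obtain ⟨Q, E, hE, hQ, rfl⟩ := h
  obtain ⟨Q', E', hE', hQ', rfl⟩ := h'
  refine ⟨C E' * Q + C E * Q', E * E', by rw [map_mul]; exact mul_ne_zero hE hE', ?_, ?_⟩
  · rw [map_add, map_mul, map_mul, aeval_C, aeval_C, hQ, hQ', map_mul]
    ring
  · rw [Polynomial.map_add, Polynomial.map_mul, Polynomial.map_mul, map_C, map_C, eval_add,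
      eval_mul, eval_mul, eval_C, eval_C, map_mul]
    field_simp

theorem IsValAt.mul {b b' : B} {z z' : ℂ} (h : IsValAt φ y w b z) (h' : IsValAt φ y w b' z') :
    IsValAt φ y w (b * b') (z * z') := by
  obtain ⟨Q, E, hE, hQ, rfl⟩ := h
  obtain ⟨Q', E', hE', hQ', rfl⟩ := h'
  refine ⟨Q * Q', E * E', by rw [map_mul]; exact mul_ne_zero hE hE', ?_, ?_⟩
  · rw [map_mul, hQ, hQ', map_mul]
    ring
  · rw [Polynomial.map_mul, eval_mul, map_mul]
    field_simp

theorem IsValAt.algebraMap (c : A) : IsValAt φ y w (algebraMap A B c) (φ c) :=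
  ⟨C c, 1, by simp, by simp, by simp⟩

theorem IsValAt.self : IsValAt φ y w y w :=
  ⟨X, 1, by simp, by simp, by simp⟩

/-- Construction of a point over a root. -/
theorem exists_point {P : A[X]} (hker : ∀ R : A[X], aeval y R = 0 → P ∣ R)
    (hw : (P.map φ).eval w = 0)
    (hgen : ∀ b : B, ∃ (Q : A[X]) (E : A), φ E ≠ 0 ∧ aeval y Q = algebraMap A B E * b) :
    ∃ χ : B →+* ℂ, (∀ c, χ (algebraMap A B c) = φ c) ∧ χ y = w := by
  have hex : ∀ b : B, ∃ z, IsValAt φ y w b z := fun b => by
    obtain ⟨Q, E, hE, hQ⟩ := hgen b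
    exact ⟨_, Q, E, hE, hQ, rfl⟩
  choose f hf using hex
  have huniq : ∀ {b : B} {z : ℂ}, IsValAt φ y w b z → f b = z := fun h =>
    (hf _).unique hker hw h
  refine ⟨{ toFun := f
            map_one' := ?_
            map_mul' := fun b b' => huniq ((hf b).mul (hf b'))
            map_zero' := ?_
            map_add' := fun b b' => huniq ((hf b).add (hf b')) }, fun c => ?_, ?_⟩
  · have := huniq (IsValAt.algebraMap (φ := φ) (y := y) (w := w) (1 : A))
    rwa [map_one, map_one] at this
  · have := huniq (IsValAt.algebraMap (φ := φ) (y := y) (w := w) (0 : A))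
    rwa [map_zero, map_zero] at this
  · exact huniq (IsValAt.algebraMap c)
  · exact huniq IsValAt.self

end

end Fermat.Agent.S27x.G2bCov
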