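import Mathlib
import Fermat.Agent.S27x.G2bCov.Lift
import Fermat.Agent.S27x.G2bCov.PointOfRoot

/-!
# P-S27 (G2b, covering route): the `Setup` of a function field over `ℂ ∖ {0, 16}` (helper63)

Context: `F` is a field which is a `K[X]`-algebra (think `X ↦ β`).  Put `u = β (β - 16)`,
`Int = integralClosure K[X] F` and `locInt = {f | ∃ m, u ^ m * f ∈ Int}` (the integral closure of
`K[β, 1/β, 1/(β-16)]`, realised as a localisation inside `F`).  From local chart data
(`ChartHyp`: around every `a0 ∈ ℂ ∖ {0,16}` a primitive integral element whose discriminant does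
not vanish at `a0`) we verify the axioms `Setup ι β (ℂ ∖ {0,16}) (eval₂ ι ·)` of `Lift.lean` for
`A = K[X]`, `B = locInt`.
-/

set_option autoImplicit false

namespace Fermat.Agent.S27x.G2bCov

open Polynomial

variable (K F : Type*) [Field K] [Field F] [Algebra K[X] F]

/-- `β (β - 16)` as an element of `K[X]`. -/
noncomputable def uPoly : K[X] := X * (X - C 16)

/-- The integral closure of `K[β, 1/β, 1/(β - 16)]` in `F`, as a localisation of the integral
closure of `K[β]`. -/
def locInt : Subalgebra K[X] F where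
  carrier := {f | ∃ m : ℕ, algebraMap K[X] F (uPoly K) ^ m * f ∈ integralClosure K[X] F}
  mul_mem' := by
    rintro f g ⟨m, hm⟩ ⟨n, hn⟩
    refine ⟨m + n, ?_⟩
    have := (integralClosure K[X] F).mul_mem hm hn
    convert this using 1
    ring
  add_mem' := by
    rintro f g ⟨m, hm⟩ ⟨n, hn⟩
    refine ⟨m + n, ?_⟩
    have hu : ∀ k : ℕ, algebraMap K[X] F (uPoly K) ^ k ∈ integralClosure K[X] F := fun k =>
      (integralClosure K[X] F).pow_mem ((integralClosure K[X] F).algebraMap_mem _) k
    have := (integralClosure K[X] F).add_mem ((integralClosure K[X] F).mul_mem (hu n) hm)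
      ((integralClosure K[X] F).mul_mem (hu m) hn)
    convert this using 1
    ring
  algebraMap_mem' q := ⟨0, by
    rw [pow_zero, one_mul]
    exact (integralClosure K[X] F).algebraMap_mem q⟩

variable {K F}

theorem mem_locInt {f : F} : f ∈ locInt K F ↔
    ∃ m : ℕ, algebraMap K[X] F (uPoly K) ^ m * f ∈ integralClosure K[X] F := Iff.rfl

theorem mem_locInt_of_isIntegral {f : F} (hf : IsIntegral K[X] f) : f ∈ locInt K F :=
  ⟨0, by rw [pow_zero, one_mul]; exact hf⟩

/-- The chart hypothesis: around every `a0 ≠ 0, 16` there is an integral primitive element whose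
discriminant `D` does not vanish at `a0`. -/
def ChartHyp (ι : K →+* ℂ) : Prop :=
  ∀ a0 : ℂ, a0 ≠ 0 → a0 ≠ 16 → ∃ (y : F) (P : K[X][X]) (D : K[X]), IsIntegral K[X] y ∧ P.Monic ∧
    aeval y P = 0 ∧ (∀ R : K[X][X], aeval y R = 0 → P ∣ R) ∧ eval₂ ι a0 D ≠ 0 ∧
    (∃ U V : K[X][X], U * P + V * derivative P = C D) ∧
    ∀ b : F, IsIntegral K[X] b → ∃ Q : K[X][X], aeval y Q = algebraMap K[X] F D * b

section setup

variable [Algebra K F] [IsScalarTower K K[X] F] (ι : K →+* ℂ)

/-- The image of `X` (i.e. `β`) in `locInt`. -/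
noncomputable def betaL : locInt K F := algebraMap K[X] (locInt K F) X

/-- Evaluation of polynomials at `a : ℂ` through `ι`. -/
noncomputable def evalAt (a : ℂ) : K[X] →+* ℂ := eval₂RingHom ι a

/-- The base `ℂ ∖ {0, 16}`. -/
def baseSet : Set ℂ := {a | a ≠ 0 ∧ a ≠ 16}

theorem isOpen_baseSet : IsOpen baseSet := by
  have : baseSet = ({0}ᶜ ∩ {16}ᶜ : Set ℂ) := by
    ext a
    simp [baseSet]
  rw [this]
  exact isOpen_compl_singleton.inter isOpen_compl_singleton

theorem evalAt_uPoly (a : ℂ) : evalAt ι a (uPoly K) = a * (a - 16) := by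
  have h16 : ι 16 = 16 := map_ofNat ι 16
  simp [evalAt, uPoly, h16]

theorem evalAt_uPoly_ne_zero {a : ℂ} (ha : a ∈ baseSet) : evalAt ι a (uPoly K) ≠ 0 := by
  rw [evalAt_uPoly]
  exact mul_ne_zero ha.1 (sub_ne_zero.mpr ha.2)

theorem algebraMap_K_eq (k : K) :
    algebraMap K (locInt K F) k = algebraMap K[X] (locInt K F) (C k) := by
  apply Subtype.ext
  show algebraMap K F k = algebraMap K[X] F (C k)
  rw [IsScalarTower.algebraMap_apply K K[X] F]
  rfl

omit [Algebra K F] [IsScalarTower K K[X] F] in
theorem coe_aeval_locInt (z : locInt K F) (Q : K[X][X]) :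
    ((aeval z Q : locInt K F) : F) = aeval (z : F) Q :=
  (Subalgebra.aeval_coe (locInt K F) z Q).symm

variable {ι}

theorem pt_comp_algebraMap (χ : Pt ι (locInt K F)) (c : K[X]) :
    χ.1 (algebraMap K[X] (locInt K F) c) = evalAt ι (χ.1 betaL) c := by
  have : χ.1.comp (algebraMap K[X] (locInt K F)) = evalAt ι (χ.1 betaL) := by
    apply Polynomial.ringHom_ext
    · intro k
      rw [RingHom.comp_apply, ← algebraMap_K_eq, χ.2]
      simp [evalAt]
    · rw [RingHom.comp_apply]
      simp [evalAt, betaL]
  exact RingHom.congr_fun this c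

/-- `Setup` for the localised integral closure over `ℂ ∖ {0, 16}`. -/
theorem setup_locInt (hinj : Function.Injective (algebraMap K[X] F)) (hch : ChartHyp (F := F) ι) :
    Setup ι (betaL : locInt K F) baseSet (evalAt ι) where
  isOpen_U := isOpen_baseSet
  diff c := by
    have : (fun a => evalAt ι a c) = fun a => (c.map ι).eval a := by
      funext a
      simp [evalAt, eval_map]
    rw [this]
    exact (Polynomial.differentiable _).differentiableOn
  compat := pt_comp_algebraMap
  mem_U χ := by
    have hX0 : algebraMap K[X] F X ≠ 0 := by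
      rw [Ne, map_eq_zero_iff _ hinj]
      exact X_ne_zero
    have hX16 : algebraMap K[X] F (X - C 16) ≠ 0 := by
      rw [Ne, map_eq_zero_iff _ hinj]
      exact X_sub_C_ne_zero 16
    -- `1 / β` and `1 / (β - 16)` lie in `locInt`
    have h1 : (algebraMap K[X] F X)⁻¹ ∈ locInt K F := by
      refine ⟨1, ?_⟩
      have : algebraMap K[X] F (uPoly K) ^ 1 * (algebraMap K[X] F X)⁻¹ =
          algebraMap K[X] F (X - C 16) := by
        rw [pow_one, uPoly, map_mul]
        field_simp
      rw [this]
      exact (integralClosure K[X] F).algebraMap_mem _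
    have h2 : (algebraMap K[X] F (X - C 16))⁻¹ ∈ locInt K F := by
      refine ⟨1, ?_⟩
      have : algebraMap K[X] F (uPoly K) ^ 1 * (algebraMap K[X] F (X - C 16))⁻¹ =
          algebraMap K[X] F X := by
        rw [pow_one, uPoly, map_mul]
        field_simp
      rw [this]
      exact (integralClosure K[X] F).algebraMap_mem _
    have e1 : (betaL : locInt K F) * ⟨_, h1⟩ = 1 := by
      apply Subtype.ext
      show algebraMap K[X] F X * (algebraMap K[X] F X)⁻¹ = 1
      exact mul_inv_cancel₀ hX0
    have e2 : (algebraMap K[X] (locInt K F) (X - C 16)) * ⟨_, h2⟩ = 1 := by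
      apply Subtype.ext
      show algebraMap K[X] F (X - C 16) * (algebraMap K[X] F (X - C 16))⁻¹ = 1
      exact mul_inv_cancel₀ hX16
    constructor
    · intro h0
      have := congrArg χ.1 e1
      rw [map_mul, h0, zero_mul, map_one] at this
      exact zero_ne_one this
    · intro h16
      have := congrArg χ.1 e2
      rw [map_mul, pt_comp_algebraMap] at this
      have hz : evalAt ι (χ.1 betaL) (X - C 16) = 0 := by
        simp [evalAt, h16]
      rw [hz, zero_mul, map_one] at this
      exact zero_ne_one this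
  integral b := by
    obtain ⟨m, hm⟩ := b.2
    obtain ⟨p, hp, hpb⟩ := hm
    refine ⟨p, uPoly K ^ m, hp, fun a ha => ?_, ?_⟩
    · rw [map_pow]
      exact pow_ne_zero _ (evalAt_uPoly_ne_zero ι ha)
    · apply Subtype.ext
      rw [coe_aeval_locInt]
      show aeval (algebraMap K[X] F (uPoly K ^ m) * (b : F)) p = 0
      rw [map_pow]
      exact hpb
  chart a0 ha0 := by
    obtain ⟨y, P, D, hy, hPm, hPy, hker, hD0, ⟨Uc, Vc, hUV⟩, hgen⟩ := hch a0 ha0.1 ha0.2
    let yB : locInt K F := ⟨y, mem_locInt_of_isIntegral hy⟩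
    have hPyB : aeval yB P = 0 := by
      apply Subtype.ext
      rw [coe_aeval_locInt]
      exact hPy
    have hkerB : ∀ R : K[X][X], aeval yB R = 0 → P ∣ R := fun R hR => by
      apply hker
      have := congrArg Subtype.val hR
      rwa [coe_aeval_locInt] at this
    have hgenB : ∀ b : locInt K F, ∃ (Q : K[X][X]) (E : K[X]),
        (∀ a ∈ baseSet, evalAt ι a D ≠ 0 → evalAt ι a E ≠ 0) ∧
        aeval yB Q = algebraMap K[X] (locInt K F) E * b := by
      intro b
      obtain ⟨m, hm⟩ := b.2
      obtain ⟨Q, hQ⟩ := hgen _ hm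
      refine ⟨Q, D * uPoly K ^ m, fun a ha hD => ?_, ?_⟩
      · rw [map_mul, map_pow]
        exact mul_ne_zero hD (pow_ne_zero _ (evalAt_uPoly_ne_zero ι ha))
      · apply Subtype.ext
        rw [coe_aeval_locInt]
        show aeval y Q = algebraMap K[X] F (D * uPoly K ^ m) * (b : F)
        rw [hQ, map_mul, map_pow]
        ring
    refine ⟨yB, P, D, hPm, hPyB, hD0, ?_, hgenB, ?_⟩
    · intro a _ hD w hw hw'
      have h1 := congrArg (fun R : K[X][X] => (R.map (evalAt ι a)).eval w) hUV
      simp only [Polynomial.map_add, Polynomial.map_mul, eval_add, eval_mul, map_C, eval_C,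
        ← derivative_map] at h1
      rw [hw, hw', mul_zero, mul_zero, add_zero] at h1
      exact hD h1.symm
    · intro a ha hD w hw
      obtain ⟨χ, hχ, hχy⟩ := exists_point (φ := evalAt ι a) (y := yB) (w := w) hkerB hw
        (fun b => by
          obtain ⟨Q, E, hE, hQ⟩ := hgenB b
          exact ⟨Q, E, hE a ha hD, hQ⟩)
      refine ⟨⟨χ, fun k => ?_⟩, ?_, hχy⟩
      · rw [algebraMap_K_eq, hχ]
        simp [evalAt]
      · show χ betaL = a
        rw [betaL, hχ]
        simp [evalAt]

end setup

end Fermat.Agent.S27x.G2bCov
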