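/-
helper41 (P-S27, block G2bCov of helper63, item (E-B)).  Primitive elements adapted to a full
fibre: if the integral closure `B` of `K[X]` in a finite extension `F` of `L = Frac K[X]` has
`[F : L]` distinct `K`-points over `X = c`, then there is an integral primitive element `y`
whose minimal polynomial over `K[X]` is separable after specialisation `X ↦ c`.
Mathlib only.
-/
import Mathlib

set_option autoImplicit false
set_option linter.unusedSectionVars false

namespace Fermat.Agent.S27x.G2bCov

open Polynomial

section FullFibre

variable {K L F : Type*} [Field K] [CharZero K] [Field L] [Field F] [Algebra K[X] L]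
  [IsFractionRing K[X] L] [Algebra L F] [Algebra K[X] F] [IsScalarTower K[X] L F]
  [FiniteDimensional L F]

/-- Two points of the integral closure over the same value `c` with the same kernel are equal. -/
theorem fullFibre_eq_of_ker_eq (c : K) (φ ψ : integralClosure K[X] F →+* K)
    (hφ : ∀ q : K[X], φ (algebraMap K[X] _ q) = q.eval c)
    (hψ : ∀ q : K[X], ψ (algebraMap K[X] _ q) = q.eval c)
    (hker : RingHom.ker φ = RingHom.ker ψ) : φ = ψ := by
  ext b
  set k : K := φ b with hk
  have h1 : b - algebraMap K[X] _ (C k) ∈ RingHom.ker φ := by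
    rw [RingHom.mem_ker, map_sub, hφ, eval_C, sub_self]
  rw [hker, RingHom.mem_ker, map_sub, hψ, eval_C, sub_eq_zero] at h1
  exact h1.symm

/-- The kernel of a point over `c` is a maximal ideal. -/
theorem fullFibre_ker_isMaximal (c : K) (φ : integralClosure K[X] F →+* K)
    (hφ : ∀ q : K[X], φ (algebraMap K[X] _ q) = q.eval c) : (RingHom.ker φ).IsMaximal := by
  apply RingHom.ker_isMaximal_of_surjective
  intro k
  exact ⟨algebraMap K[X] _ (C k), by rw [hφ, eval_C]⟩

/-- An element of the integral closure taking pairwise distinct values at the given points. -/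
theorem exists_separating (c : K) {d : ℕ} (π : Fin d → (integralClosure K[X] F →+* K))
    (hinj : Function.Injective π)
    (hπ : ∀ i (q : K[X]), π i (algebraMap K[X] _ q) = q.eval c) :
    ∃ y : integralClosure K[X] F, ∀ i, π i y = ((i : ℕ) : K) := by
  have hcop : Pairwise (Function.onFun IsCoprime fun i => RingHom.ker (π i)) := by
    intro i j hij
    have hi := fullFibre_ker_isMaximal c (π i) (hπ i)
    have hj := fullFibre_ker_isMaximal c (π j) (hπ j)
    rw [Function.onFun, Ideal.isCoprime_iff_sup_eq]
    refine Ideal.IsMaximal.coprime_of_ne hi hj fun h => hij (hinj ?_)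
    exact fullFibre_eq_of_ker_eq c (π i) (π j) (hπ i) (hπ j) h
  obtain ⟨y, hy⟩ := Ideal.exists_forall_sub_mem_ideal hcop
    (fun i => algebraMap K[X] (integralClosure K[X] F) (C (((i : ℕ) : K))))
  refine ⟨y, fun i => ?_⟩
  have := hy i
  rw [RingHom.mem_ker, map_sub, hπ, eval_C, sub_eq_zero] at this
  exact this

/-- Auxiliary form of `exists_primitive_of_fullFibre` with a free index `d`. -/
theorem exists_primitive_of_fullFibre_aux (c : K) {d : ℕ} (hd : d = Module.finrank L F)
    (π : Fin d → (integralClosure K[X] F →+* K))
    (hinj : Function.Injective π)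
    (hπ : ∀ i (q : K[X]), π i (algebraMap K[X] _ q) = q.eval c) :
    ∃ y : F, IsIntegral K[X] y ∧ IntermediateField.adjoin L {y} = ⊤ ∧
      ((minpoly K[X] y).map (Polynomial.evalRingHom c)).Separable := by
  classical
  obtain ⟨y0, hy0⟩ := exists_separating c π hinj hπ
  set y : F := (y0 : F) with hy
  have hyint : IsIntegral K[X] y := y0.2
  set P : K[X][X] := minpoly K[X] y with hP
  have hPmonic : P.Monic := minpoly.monic hyint
  set Pc : K[X] := P.map (Polynomial.evalRingHom c) with hPc
  have hPcmonic : Pc.Monic := hPmonic.map _
  have hPcdeg : Pc.natDegree = P.natDegree := hPmonic.natDegree_map _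
  -- the minimal polynomial over `L`
  have hminL : minpoly L y = P.map (algebraMap K[X] L) :=
    minpoly.isIntegrallyClosed_eq_field_fractions L F hyint
  have hyintL : IsIntegral L y := hyint.tower_top
  have hdegL : (minpoly L y).natDegree = P.natDegree := by
    rw [hminL]
    exact hPmonic.natDegree_map _
  have hdeg_le : P.natDegree ≤ d := by
    rw [← hdegL, hd]
    exact minpoly.natDegree_le y
  -- the values `π i y0` are roots of `Pc`
  have hroot : ∀ i : Fin d, Pc.IsRoot (((i : ℕ) : K)) := by
    intro i
    have h0 : Polynomial.aeval y0 P = 0 := by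
      apply Subtype.ext
      have h1 : ((Polynomial.aeval y0 P : integralClosure K[X] F) : F) =
          Polynomial.aeval y P := by
        rw [hy]
        exact (Polynomial.aeval_algHom_apply (integralClosure K[X] F).val y0 P).symm
      rw [h1, hP, minpoly.aeval]
      rfl
    have h2 := congrArg (π i) h0
    rw [map_zero, Polynomial.aeval_def, Polynomial.hom_eval₂, hy0 i] at h2
    have h3 : (π i).comp (algebraMap K[X] (integralClosure K[X] F)) =
        Polynomial.evalRingHom c := by
      ext q
      · simp [hπ i]
      · simp [hπ i]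
    rw [h3] at h2
    rw [Polynomial.IsRoot.def, hPc, Polynomial.eval_map]
    exact h2
  have hPc0 : Pc ≠ 0 := hPcmonic.ne_zero
  -- the roots
  set S : Finset K := Finset.univ.image (fun i : Fin d => (((i : ℕ) : K))) with hS
  have hScard : S.card = d := by
    rw [hS, Finset.card_image_of_injective, Finset.card_univ, Fintype.card_fin]
    intro i j hij
    have : ((i : ℕ) : K) = ((j : ℕ) : K) := hij
    exact Fin.ext (Nat.cast_injective this)
  have hSsub : S ⊆ Pc.roots.toFinset := by
    intro k hk
    obtain ⟨i, -, rfl⟩ := Finset.mem_image.mp hk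
    rw [Multiset.mem_toFinset, Polynomial.mem_roots hPc0]
    exact hroot i
  have h1 : d ≤ Pc.roots.toFinset.card := hScard ▸ Finset.card_le_card hSsub
  have h2 : Pc.roots.toFinset.card ≤ Multiset.card Pc.roots := Multiset.toFinset_card_le _
  have h3 : Multiset.card Pc.roots ≤ Pc.natDegree := Polynomial.card_roots' Pc
  have hdegeq : P.natDegree = d := by omega
  have hcardroots : Multiset.card Pc.roots = Pc.natDegree := by omega
  have hnodup : Pc.roots.Nodup := by
    rw [← Multiset.toFinset_card_eq_card_iff_nodup]
    omega
  have hsplits : Pc.Splits := Polynomial.splits_iff_card_roots.mpr hcardroots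
  have hsep : Pc.Separable := (Polynomial.nodup_roots_iff_of_splits hPc0 hsplits).mp hnodup
  refine ⟨y, hyint, ?_, hsep⟩
  -- primitivity
  apply IntermediateField.eq_of_le_of_finrank_eq le_top
  rw [IntermediateField.adjoin.finrank hyintL, hdegL, hdegeq, IntermediateField.finrank_top', hd]

/-- **(E-B)** A primitive element adapted to a full fibre over `X = c`. -/
theorem exists_primitive_of_fullFibre (c : K)
    (π : Fin (Module.finrank L F) → (integralClosure K[X] F →+* K))
    (hinj : Function.Injective π)
    (hπ : ∀ i (q : K[X]), π i (algebraMap K[X] _ q) = q.eval c) :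
    ∃ y : F, IsIntegral K[X] y ∧ IntermediateField.adjoin L {y} = ⊤ ∧
      ((minpoly K[X] y).map (Polynomial.evalRingHom c)).Separable :=
  exists_primitive_of_fullFibre_aux c rfl π hinj hπ

/-- **(E-B')** An integral primitive element (no condition on fibres). -/
theorem exists_integral_primitive [Algebra.IsSeparable L F] :
    ∃ y : F, IsIntegral K[X] y ∧ IntermediateField.adjoin L {y} = ⊤ := by
  obtain ⟨z, hz⟩ := Field.exists_primitive_element L F
  have hzalg : IsAlgebraic L z := Algebra.IsAlgebraic.isAlgebraic z
  have hzalg' : IsAlgebraic K[X] z :=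
    (IsFractionRing.isAlgebraic_iff K[X] L F).mpr hzalg
  obtain ⟨a, ha0, hint⟩ := hzalg'.exists_integral_multiple
  rw [Algebra.smul_def] at hint
  refine ⟨algebraMap K[X] F a * z, hint, ?_⟩
  rw [eq_top_iff, ← hz]
  rw [IntermediateField.adjoin_le_iff, Set.singleton_subset_iff]
  have hinjF : Function.Injective (algebraMap K[X] F) := by
    rw [IsScalarTower.algebraMap_eq K[X] L F]
    exact (algebraMap L F).injective.comp (IsFractionRing.injective K[X] L)
  have ha' : algebraMap K[X] F a ≠ 0 := by
    intro h
    apply ha0
    exact (injective_iff_map_eq_zero (algebraMap K[X] F)).mp hinjF a h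
  have hmem : algebraMap K[X] F a * z ∈ IntermediateField.adjoin L {algebraMap K[X] F a * z} :=
    IntermediateField.mem_adjoin_simple_self L _
  have hamem : algebraMap K[X] F a ∈ IntermediateField.adjoin L {algebraMap K[X] F a * z} := by
    rw [IsScalarTower.algebraMap_apply K[X] L F]
    exact IntermediateField.algebraMap_mem _ _
  have hfin := mul_mem (inv_mem hamem) hmem
  rwa [← mul_assoc, inv_mul_cancel₀ ha', one_mul] at hfin

end FullFibre

end Fermat.Agent.S27x.G2bCov
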