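import Mathlib
import Fermat.Agent.S27x.G2b.Defs
import Fermat.Agent.S24.PrincipalDiv
import Fermat.Agent.S24.PlacesDedekind

/-!
# P-S27 (G2b, covering route): the full fibre over an unramified value (helper48)

For `β : F` transcendental over the algebraically closed field `K` of characteristic zero with
`F / K(β)` finite, and a value `c : K` all of whose preimages are simple zeros of `β - c`
(e.g. `c ≠ 0, 16` under `IsBelyiUnram K β`), there are exactly `d = [F : K(β)]` places over
`β = c`, and they give `d` distinct `K`-points of the integral closure of `K[β]` in `F`.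
-/

set_option autoImplicit false
set_option linter.style.haveILetI false
set_option linter.unusedSectionVars false

noncomputable section

open Polynomial IntermediateField AlgebraicCurve IsDedekindDomain

namespace Fermat.Agent.S27x.G2bCov

open Fermat.Agent.S24

variable {K F : Type*} [Field K] [Field F] [Algebra K F]

section Adjoin

/-- `K(β - c) = K(β)`. -/
theorem adjoin_sub_const (β : F) (c : K) : K⟮β - algebraMap K F c⟯ = K⟮β⟯ := by
  apply le_antisymm
  · rw [adjoin_simple_le_iff]
    exact K⟮β⟯.sub_mem (mem_adjoin_simple_self K β) (K⟮β⟯.algebraMap_mem c)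
  · rw [adjoin_simple_le_iff]
    have h1 := mem_adjoin_simple_self K (β - algebraMap K F c)
    have h2 := K⟮β - algebraMap K F c⟯.add_mem h1 (K⟮β - algebraMap K F c⟯.algebraMap_mem c)
    simpa using h2

theorem transcendental_sub_const {β : F} (hβ : Transcendental K β) (c : K) :
    Transcendental K (β - algebraMap K F c) := by
  intro h
  apply hβ
  have := h.add (isAlgebraic_algebraMap (R := K) (A := F) c)
  simpa using this

/-- The `K[X]`-algebra structure on `K⟮β⟯` (`X ↦ β`). -/
@[reducible] def algebraPolyAdjoin (β : F) : Algebra K[X] K⟮β⟯ :=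
  (aeval (⟨β, mem_adjoin_simple_self K β⟩ : K⟮β⟯) : K[X] →ₐ[K] K⟮β⟯).toRingHom.toAlgebra

theorem coe_algebraMap_polyAdjoin (β : F) (p : K[X]) :
    ((@algebraMap K[X] K⟮β⟯ _ _ (algebraPolyAdjoin β) p : K⟮β⟯) : F) = aeval β p := by
  letI := algebraPolyAdjoin (K := K) β
  show ((aeval (⟨β, mem_adjoin_simple_self K β⟩ : K⟮β⟯) p : K⟮β⟯) : F) = aeval β p
  have : (K⟮β⟯.val : K⟮β⟯ →ₐ[K] F).comp
      (aeval (⟨β, mem_adjoin_simple_self K β⟩ : K⟮β⟯)) = aeval β := by
    apply Polynomial.algHom_ext
    simp
  exact DFunLike.congr_fun this p

/-- `K⟮β⟯` is the fraction field of `K[X]` (`X ↦ β`, `β` transcendental). -/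
theorem isFractionRing_polyAdjoin {β : F} (hβ : Transcendental K β) :
    @IsFractionRing K[X] _ K⟮β⟯ _ (algebraPolyAdjoin β) := by
  letI := algebraPolyAdjoin (K := K) β
  haveI : FaithfulSMul K[X] K⟮β⟯ := by
    rw [faithfulSMul_iff_algebraMap_injective]
    intro p q hpq
    have h' := congrArg (fun x : K⟮β⟯ => (x : F)) hpq
    simp only [coe_algebraMap_polyAdjoin] at h'
    exact (transcendental_iff_injective.mp hβ) h'
  refine IsFractionRing.of_field K[X] K⟮β⟯ fun z => ?_
  obtain ⟨r, s, hrs⟩ := (mem_adjoin_simple_iff K (z : F)).mp z.2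
  refine ⟨r, s, ?_⟩
  apply Subtype.ext
  rw [hrs]
  push_cast
  rw [coe_algebraMap_polyAdjoin, coe_algebraMap_polyAdjoin]

end Adjoin

section Main

variable [IsAlgClosed K] [CharZero K] {β : F} (hβ : Transcendental K β)
  [FiniteDimensional K⟮β⟯ F]

include hβ in
/-- If all zeros of `β - c` are simple, there are exactly `[F : K(β)]` of them. -/
theorem card_zeros_eq_finrank (c : K)
    (hsimple : ∀ v : Place K F, 0 < v.ord (β - algebraMap K F c) →
      v.ord (β - algebraMap K F c) = 1) :
    ∃ (_ : Fintype {v : Place K F // 0 < v.ord (β - algebraMap K F c)}),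
      Fintype.card {v : Place K F // 0 < v.ord (β - algebraMap K F c)} =
        Module.finrank K⟮β⟯ F := by
  have hy := transcendental_sub_const hβ c
  have he := adjoin_sub_const (K := K) β c
  haveI : FiniteDimensional K⟮β - algebraMap K F c⟯ F := by rw [he]; infer_instance
  obtain ⟨inst, hsum⟩ := ZD.sum_ord_zeros (β - algebraMap K F c) hy
  refine ⟨inst, ?_⟩
  have h1 : ∑ v : {v : Place K F // 0 < v.ord (β - algebraMap K F c)},
      v.1.ord (β - algebraMap K F c) =
      ∑ _v : {v : Place K F // 0 < v.ord (β - algebraMap K F c)}, (1 : ℤ) :=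
    Finset.sum_congr rfl fun v _ => hsimple v.1 v.2
  rw [h1, Finset.sum_const, Finset.card_univ, nsmul_eq_mul, mul_one] at hsum
  have h2 : Module.finrank K⟮β - algebraMap K F c⟯ F = Module.finrank K⟮β⟯ F := by rw [he]
  rw [h2] at hsum
  exact_mod_cast hsum

variable [Algebra K[X] F] (halg : ∀ p : K[X], algebraMap K[X] F p = aeval β p)

include hβ halg in
/-- **Full fibre.**  If all zeros of `β - c` are simple, the integral closure of `K[β]` in `F`
has `[F : K(β)]` distinct `K`-points over `β = c`. -/
theorem exists_fullFibre (c : K)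
    (hsimple : ∀ v : Place K F, 0 < v.ord (β - algebraMap K F c) →
      v.ord (β - algebraMap K F c) = 1) :
    ∃ π : Fin (Module.finrank K⟮β⟯ F) → (integralClosure K[X] F →+* K),
      Function.Injective π ∧
        ∀ i (q : K[X]), π i (algebraMap K[X] (integralClosure K[X] F) q) = q.eval c := by
  classical
  -- instances
  haveI tKPF : IsScalarTower K K[X] F := IsScalarTower.of_algebraMap_eq fun a => by
    rw [halg, Polynomial.algebraMap_apply, aeval_C]
    rfl
  letI := algebraPolyAdjoin (K := K) β
  haveI := isFractionRing_polyAdjoin hβ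
  haveI tPLF : IsScalarTower K[X] K⟮β⟯ F := IsScalarTower.of_algebraMap_eq fun p => by
    rw [halg]
    exact (coe_algebraMap_polyAdjoin β p).symm
  haveI hDed : IsDedekindDomain (integralClosure K[X] F) :=
    integralClosure.isDedekindDomain K[X] K⟮β⟯ F
  haveI hFrac : IsFractionRing (integralClosure K[X] F) F :=
    integralClosure.isFractionRing_of_finite_extension K⟮β⟯ F
  haveI tKRF : IsScalarTower K (integralClosure K[X] F) F :=
    IsScalarTower.of_algebraMap_eq fun a => rfl
  set y : F := β - algebraMap K F c with hy_def
  have hy := transcendental_sub_const hβ c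
  have hy0 : y ≠ 0 := by
    intro h
    apply hy
    rw [← hy_def, h]
    exact isAlgebraic_zero
  -- the valuation rings of the zeros contain the integral closure
  have hβmem : ∀ v : Place K F, 0 < v.ord y → β ∈ v.toValuationSubring := by
    intro v hv
    have h1 : y ∈ v.toValuationSubring := (PD.place_mem_iff v hy0).mpr hv.le
    have h2 := v.toValuationSubring.add_mem _ _ h1 (v.algebraMap_mem' c)
    simpa [hy_def] using h2
  have hB : ∀ v : Place K F, 0 < v.ord y →
      ∀ b : integralClosure K[X] F, algebraMap (integralClosure K[X] F) F b ∈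
        v.toValuationSubring := by
    intro v hv b
    refine ZD.mem_valuationSubring_of_isIntegral (R := K[X]) v.toValuationSubring
      (fun r => ?_) b.2
    refine ZD.algebraMap_polynomial_mem v ?_ r
    rw [halg, aeval_X]
    exact hβmem v hv
  -- the point attached to a zero
  let ιv : ∀ v : Place K F, K ≃+* v.ResidueField := fun v =>
    RingEquiv.ofBijective (algebraMap K v.ResidueField)
      ⟨(algebraMap K v.ResidueField).injective, PD.residue_surjective hβ v⟩
  let ρ : ∀ (v : Place K F) (hv : 0 < v.ord y), integralClosure K[X] F →+* v.ResidueField :=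
    fun v hv => (IsLocalRing.residue v.toValuationSubring).comp
      ((algebraMap (integralClosure K[X] F) F).codRestrict v.toValuationSubring.toSubring
        (hB v hv))
  let πv : ∀ (v : Place K F) (hv : 0 < v.ord y), integralClosure K[X] F →+* K :=
    fun v hv => ((ιv v).symm : v.ResidueField →+* K).comp (ρ v hv)
  -- kernel of `ρ` is the prime of the place
  have hker : ∀ (v : Place K F) (hv : 0 < v.ord y) (r : integralClosure K[X] F),
      ρ v hv r = 0 ↔ r ∈ (PD.primeOfPlace v (hB v hv)).asIdeal := by
    intro v hv r
    rw [PD.mem_primeOfPlace_iff]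
    exact IsLocalRing.residue_eq_zero_iff _
  -- values on polynomials
  have hval : ∀ (v : Place K F) (hv : 0 < v.ord y) (q : K[X]),
      ρ v hv (algebraMap K[X] (integralClosure K[X] F) q) =
        algebraMap K v.ResidueField (q.eval c) := by
    intro v hv q
    have hhom : (ρ v hv).comp (algebraMap K[X] (integralClosure K[X] F)) =
        (algebraMap K v.ResidueField).comp (Polynomial.evalRingHom c) := by
      apply Polynomial.ringHom_ext
      · intro a
        simp only [RingHom.comp_apply, Polynomial.coe_evalRingHom, eval_C]
        have e1 : (algebraMap (integralClosure K[X] F) F).codRestrict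
            v.toValuationSubring.toSubring (hB v hv)
            (algebraMap K[X] (integralClosure K[X] F) (C a)) =
            algebraMap K v.toValuationSubring a := by
          apply Subtype.ext
          show algebraMap K[X] F (C a) = algebraMap K F a
          rw [halg, aeval_C]
        show IsLocalRing.residue v.toValuationSubring _ = _
        rw [e1]
        rfl
      · simp only [RingHom.comp_apply, Polynomial.coe_evalRingHom, eval_X]
        have hymem : y ∈ v.toValuationSubring := (PD.place_mem_iff v hy0).mpr hv.le
        have e1 : (algebraMap (integralClosure K[X] F) F).codRestrict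
            v.toValuationSubring.toSubring (hB v hv)
            (algebraMap K[X] (integralClosure K[X] F) X) =
            (⟨y, hymem⟩ : v.toValuationSubring) + algebraMap K v.toValuationSubring c := by
          apply Subtype.ext
          show algebraMap K[X] F X = y + algebraMap K F c
          rw [halg, aeval_X, hy_def]
          ring
        show IsLocalRing.residue v.toValuationSubring _ = _
        rw [e1, map_add]
        have e2 : IsLocalRing.residue v.toValuationSubring (⟨y, hymem⟩ : v.toValuationSubring)
            = 0 := by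
          rw [IsLocalRing.residue_eq_zero_iff]
          exact (PD.place_mem_maximalIdeal_iff v ⟨y, hymem⟩ hy0).mpr hv
        rw [e2, zero_add]
        rfl
    exact RingHom.congr_fun hhom q
  -- enumerate the zeros
  obtain ⟨inst, hcard⟩ := card_zeros_eq_finrank hβ c hsimple
  let e : Fin (Module.finrank K⟮β⟯ F) ≃ {v : Place K F // 0 < v.ord y} :=
    (Fintype.equivFinOfCardEq hcard).symm
  refine ⟨fun i => πv (e i).1 (e i).2, ?_, ?_⟩
  · intro i j hij
    apply e.injective
    apply Subtype.ext
    -- the two places have the same prime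
    have hP : PD.primeOfPlace (e i).1 (hB _ (e i).2) = PD.primeOfPlace (e j).1 (hB _ (e j).2) := by
      apply HeightOneSpectrum.ext
      ext r
      have h1 : ∀ (v : Place K F) (hv : 0 < v.ord y), ρ v hv r = 0 ↔ πv v hv r = 0 := by
        intro v hv
        show _ ↔ (ιv v).symm (ρ v hv r) = 0
        rw [map_eq_zero_iff _ (ιv v).symm.injective]
      rw [← hker _ (e i).2, ← hker _ (e j).2, h1 _ (e i).2, h1 _ (e j).2]
      have h2 : πv (e i).1 (e i).2 r = πv (e j).1 (e j).2 r := RingHom.congr_fun hij r
      rw [h2]
    rw [← PD.placeOfPrime_primeOfPlace (e i).1 (hB _ (e i).2),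
      ← PD.placeOfPrime_primeOfPlace (e j).1 (hB _ (e j).2), hP]
  · intro i q
    show (ιv (e i).1).symm (ρ (e i).1 (e i).2 _) = _
    rw [hval (e i).1 (e i).2 q, RingEquiv.symm_apply_eq]
    rfl

include hβ halg in
/-- **Full fibre over an unramified value of a Belyi function.** -/
theorem exists_fullFibre_of_isBelyiUnram (h : G2b.IsBelyiUnram K β) (c : K) (hc0 : c ≠ 0)
    (hc16 : c ≠ 16) :
    ∃ π : Fin (Module.finrank K⟮β⟯ F) → (integralClosure K[X] F →+* K),
      Function.Injective π ∧
        ∀ i (q : K[X]), π i (algebraMap K[X] (integralClosure K[X] F) q) = q.eval c :=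
  exists_fullFibre hβ halg c fun v hv => h v c hc0 hc16 hv

end Main

end Fermat.Agent.S27x.G2bCov
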