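/-
P-S27, block G2(b), covering route (helper96): the chart hypothesis `ChartHyp ι` of
`EtaleSetup.lean` for a Belyi function field.

For `β : F` transcendental over the algebraically closed field `K` of characteristic `0`, `F`
finite over `K(β)` and unramified over every value `c ≠ 0, 16`, every `a0 ∈ ℂ ∖ {0, 16}` admits an
integral primitive element `y` whose discriminant does not vanish at `a0`:

* if `a0 = ι c`, the fibre over `c` consists of `[F : K(β)]` distinct points
  (`exists_fullFibre_of_isBelyiUnram`), which gives a primitive element with separable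
  specialisation (`exists_primitive_of_fullFibre`), hence a discriminant not vanishing at `c`
  (`eval_resultant_ne_zero`);
* if `a0 ∉ ι K`, no nonzero polynomial over `K` vanishes at `a0` (`K` is algebraically closed), and
  any integral primitive element works.
-/
import Mathlib
import Fermat.Agent.S27x.G2bCov.EtaleSetup
import Fermat.Agent.S27x.G2bCov.FullFibre
import Fermat.Agent.S27x.G2bCov.FullFibreBelyi
import Fermat.Agent.S27x.G2bCov.ChartData

set_option autoImplicit false

open Polynomial IntermediateField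

namespace Fermat.Agent.S27x.G2bCov

/-- Over an algebraically closed field `K`, a zero in `ℂ` of a nonzero polynomial over `K` comes
from `K`. -/
theorem mem_range_of_eval₂_eq_zero {K : Type*} [Field K] [IsAlgClosed K] (ι : K →+* ℂ) {D : K[X]}
    (hD : D ≠ 0) {a0 : ℂ} (h0 : eval₂ ι a0 D = 0) : a0 ∈ Set.range ι := by
  have hmap : D.map ι ≠ 0 := by rwa [Ne, Polynomial.map_eq_zero]
  have hroot : a0 ∈ (D.map ι).roots := by
    rw [mem_roots hmap, IsRoot.def, eval_map]
    exact h0
  rw [(IsAlgClosed.splits D).roots_map ι] at hroot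
  obtain ⟨r, -, hr⟩ := Multiset.mem_map.1 hroot
  exact ⟨r, hr⟩

variable {K F : Type*} [Field K] [Field F] [Algebra K F] [IsAlgClosed K] [CharZero K] {β : F}
  (hβ : Transcendental K β) [FiniteDimensional K⟮β⟯ F] [Algebra K[X] F]
  (halg : ∀ p : K[X], algebraMap K[X] F p = aeval β p)

include hβ halg in
/-- **The chart hypothesis for a Belyi function field.** -/
theorem chartHyp_of_isBelyiUnram (h : G2b.IsBelyiUnram K β) (ι : K →+* ℂ) :
    ChartHyp (F := F) ι := by
  classical
  let _ := algebraPolyAdjoin (K := K) β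
  have := isFractionRing_polyAdjoin hβ
  have tPLF : IsScalarTower K[X] K⟮β⟯ F := IsScalarTower.of_algebraMap_eq fun p => by
    rw [halg]
    exact (coe_algebraMap_polyAdjoin β p).symm
  intro a0 ha0 ha16
  by_cases hr : a0 ∈ Set.range ι
  · obtain ⟨c, rfl⟩ := hr
    have hc0 : c ≠ 0 := fun h0 => ha0 (by rw [h0, map_zero])
    have hc16 : c ≠ 16 := fun h0 => ha16 (by rw [h0, map_ofNat])
    obtain ⟨π, hπinj, hπ⟩ := exists_fullFibre_of_isBelyiUnram hβ halg h c hc0 hc16
    obtain ⟨y, hy, hprim, hsep⟩ := exists_primitive_of_fullFibre (L := K⟮β⟯) c π hπinj hπ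
    obtain ⟨hm, hroot, -, hker, -, hUV, hgen⟩ := exists_chartData (L := K⟮β⟯) y hy hprim
    refine ⟨y, minpoly K[X] y, _, hy, hm, hroot, hker, ?_, hUV, hgen⟩
    rw [Polynomial.eval₂_at_apply]
    exact (map_ne_zero ι).2 (eval_resultant_ne_zero hm c hsep)
  · have : CharZero K⟮β⟯ := charZero_of_injective_algebraMap (algebraMap K K⟮β⟯).injective
    obtain ⟨y, hy, hprim⟩ := exists_integral_primitive (K := K) (L := K⟮β⟯) (F := F)
    obtain ⟨hm, hroot, -, hker, hD0, hUV, hgen⟩ := exists_chartData (L := K⟮β⟯) y hy hprim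
    refine ⟨y, minpoly K[X] y, _, hy, hm, hroot, hker, ?_, hUV, hgen⟩
    exact fun h0 => hr (mem_range_of_eval₂_eq_zero ι hD0 h0)

end Fermat.Agent.S27x.G2bCov
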