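import Mathlib
import Fermat.Agent.S27x.G2bCov.EtaleSetup
import Fermat.Agent.S24.Ord

/-!
# P-S27 (G2b, covering route): the embedding into `MerFun` (helper63)

From the chart hypothesis `ChartHyp ι` (see `EtaleSetup.lean`) and a holomorphic function
`t : ℍ → ℂ ∖ {0, 16}` which is not algebraic over `ι K`, we construct a ring homomorphism
`emb : F →+* MerFun` with `emb β = t`, `emb = ι` on constants, and holomorphic values on the
localised integral closure `locInt K F`.
-/

set_option autoImplicit false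

namespace Fermat.Agent.S27x.G2bCov

open Polynomial UpperHalfPlane Fermat.Agent.S24
open scoped Manifold

variable {K F : Type*} [Field K] [Field F] [Algebra K[X] F]

/-- `F` is the fraction field of `locInt K F` as soon as `F` is algebraic over `K[X]`. -/
theorem isFractionRing_locInt (hinj : Function.Injective (algebraMap K[X] F))
    (halg : Algebra.IsAlgebraic K[X] F) : IsFractionRing (locInt K F) F := by
  have : FaithfulSMul (locInt K F) F := by
    rw [faithfulSMul_iff_algebraMap_injective]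
    exact Subtype.val_injective
  refine IsFractionRing.of_field (locInt K F) F fun z => ?_
  obtain ⟨q, hq0, hq⟩ := (halg.isAlgebraic z).exists_integral_multiple
  refine ⟨⟨q • z, mem_locInt_of_isIntegral hq⟩, algebraMap K[X] (locInt K F) q, ?_⟩
  have hqF : algebraMap K[X] F q ≠ 0 := by
    rw [Ne, map_eq_zero_iff _ hinj]
    exact hq0
  show z = (q • z) / algebraMap K[X] F q
  rw [Algebra.smul_def, mul_div_assoc, mul_comm, div_mul_cancel₀ _ hqF]

variable [Algebra K F] [IsScalarTower K K[X] F] {ι : K →+* ℂ}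

/-- There is a complex point of `locInt K F` over every `a0 ≠ 0, 16`. -/
theorem exists_pt_over (hinj : Function.Injective (algebraMap K[X] F))
    (hch : ChartHyp (F := F) ι) {a0 : ℂ} (ha0 : a0 ∈ baseSet) :
    ∃ χ : Pt ι (locInt K F), χ.1 betaL = a0 := by
  have hS := setup_locInt hinj hch
  obtain ⟨y, P, D, hPm, hPy, hD0, -, -, hex⟩ := hS.chart a0 ha0
  have hnat : P.natDegree ≠ 0 := by
    intro h0
    have hP1 : P = 1 := hPm.natDegree_eq_zero.mp h0
    rw [hP1, map_one] at hPy
    exact one_ne_zero hPy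
  have hdeg : (P.map (evalAt ι a0)).degree ≠ 0 := by
    have hm : (P.map (evalAt ι a0)).Monic := hPm.map _
    rw [degree_eq_natDegree hm.ne_zero, hPm.natDegree_map]
    exact_mod_cast hnat
  obtain ⟨w, hw⟩ := IsAlgClosed.exists_root _ hdeg
  obtain ⟨χ, hχ, -⟩ := hex a0 ha0 hD0 w hw
  exact ⟨χ, hχ⟩

/-- A nonconstant holomorphic function on `ℍ` is not a root of any nonzero polynomial. -/
theorem exists_eval_ne_zero (t : HolFun) (hnc : ¬ ∃ c : ℂ, ∀ τ, (t : ℍ → ℂ) τ = c)
    (q : K[X]) (hq : q ≠ 0) : ∃ τ, eval₂ ι ((t : ℍ → ℂ) τ) q ≠ 0 := by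
  by_contra hcon
  rw [not_exists] at hcon
  apply hnc
  have hq' : q.map ι ≠ 0 := by
    rwa [Ne, Polynomial.map_eq_zero]
  have hfin : {a : ℂ | (q.map ι).IsRoot a}.Finite := finite_setOfPred_isRoot hq'
  have hmaps : Set.MapsTo (t : ℍ → ℂ) Set.univ {a : ℂ | (q.map ι).IsRoot a} := by
    intro τ _
    have := not_not.mp (hcon τ)
    show (q.map ι).IsRoot _
    rw [IsRoot.def, eval_map]
    exact this
  refine ⟨(t : ℍ → ℂ) UpperHalfPlane.I, fun τ => ?_⟩
  exact isPreconnected_univ.constant_of_mapsTo hfin.isDiscrete t.2.continuous.continuousOn hmaps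
    (Set.mem_univ τ) (Set.mem_univ _)

/-- **The embedding.**  From the chart hypothesis and a nonconstant holomorphic
`t : ℍ → ℂ ∖ {0, 16}` we get `emb : F →+* MerFun` with `emb β = t`, `emb = ι` on constants and
holomorphic values on `locInt K F`. -/
theorem exists_emb (hinj : Function.Injective (algebraMap K[X] F))
    (halg : Algebra.IsAlgebraic K[X] F) (hch : ChartHyp (F := F) ι)
    (t : HolFun) (ht : ∀ τ, (t : ℍ → ℂ) τ ≠ 0 ∧ (t : ℍ → ℂ) τ ≠ 16)
    (ht' : ∀ q : K[X], q ≠ 0 → ∃ τ, eval₂ ι ((t : ℍ → ℂ) τ) q ≠ 0) :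
    ∃ emb : F →+* MerFun,
      (∀ k : K, emb (algebraMap K F k) = algebraMap HolFun MerFun (algebraMap ℂ HolFun (ι k))) ∧
      emb (algebraMap K[X] F X) = algebraMap HolFun MerFun t ∧
      ∀ f ∈ locInt K F, ∃ g : HolFun, emb f = algebraMap HolFun MerFun g := by
  have hS := setup_locInt hinj hch
  obtain ⟨χ0, hχ0⟩ := exists_pt_over hinj hch (ht UpperHalfPlane.I)
  obtain ⟨Φ, hΦd, hΦβ, hΦK, -, hΦpt⟩ :=
    hS.exists_lift (t : ℍ → ℂ) t.2 ht UpperHalfPlane.I χ0 hχ0
  -- values on `K[X]`
  have hΦq : ∀ (q : K[X]) (τ : ℍ),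
      Φ (algebraMap K[X] (locInt K F) q) τ = eval₂ ι ((t : ℍ → ℂ) τ) q := by
    intro q τ
    obtain ⟨χ, hχ⟩ := hΦpt τ
    rw [hχ, pt_comp_algebraMap, ← hχ, hΦβ]
    rfl
  let Φ' : locInt K F →+* HolFun := Φ.codRestrict HolFun hΦd
  have hΦ'inj : Function.Injective Φ' := by
    rw [injective_iff_map_eq_zero]
    intro b hb
    by_contra hb0
    have hbF : (b : F) ≠ 0 := fun h => hb0 (Subtype.ext h)
    obtain ⟨q, hq0, hq⟩ := (halg.isAlgebraic (b : F)⁻¹).exists_integral_multiple
    let g : locInt K F := ⟨q • (b : F)⁻¹, mem_locInt_of_isIntegral hq⟩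
    have hbg : b * g = algebraMap K[X] (locInt K F) q := by
      apply Subtype.ext
      show (b : F) * (q • (b : F)⁻¹) = algebraMap K[X] F q
      rw [Algebra.smul_def, mul_left_comm, mul_inv_cancel₀ hbF, mul_one]
    obtain ⟨τ, hτ⟩ := ht' q hq0
    apply hτ
    rw [← hΦq q τ, ← hbg, map_mul]
    have : Φ b = 0 := congrArg Subtype.val hb
    rw [this, zero_mul]
    rfl
  have := isFractionRing_locInt hinj halg
  have hginj : Function.Injective ((algebraMap HolFun MerFun).comp Φ') :=
    (IsFractionRing.injective HolFun MerFun).comp hΦ'inj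
  refine ⟨IsFractionRing.lift hginj, fun k => ?_, ?_, fun f hf => ⟨Φ' ⟨f, hf⟩, ?_⟩⟩
  · have h1 : algebraMap K F k = algebraMap (locInt K F) F (algebraMap K (locInt K F) k) := rfl
    rw [h1, IsFractionRing.lift_algebraMap, RingHom.comp_apply]
    congr 1
    apply Subtype.ext
    show Φ (algebraMap K (locInt K F) k) = _
    rw [hΦK k]
    rfl
  · have h1 : algebraMap K[X] F X = algebraMap (locInt K F) F betaL := rfl
    rw [h1, IsFractionRing.lift_algebraMap, RingHom.comp_apply]
    congr 1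
    apply Subtype.ext
    show Φ betaL = _
    rw [hΦβ]
  · have h1 : f = algebraMap (locInt K F) F ⟨f, hf⟩ := rfl
    conv_lhs => rw [h1]
    rw [IsFractionRing.lift_algebraMap, RingHom.comp_apply]

end Fermat.Agent.S27x.G2bCov
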