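/-
P-S27, block G2(b), covering route (helper96): the embedding of a Belyi function field into
`MerFun` sending the Belyi function to the level four Hauptmodul.

For `K` algebraically closed of characteristic `0`, `ι : K →+* ℂ`, `β : F` transcendental with
`F / K(β)` finite and unramified outside `0, 16, ∞`:
`∃ emb : F →+* MerFun`, `emb c = ι c` on constants and `emb β = t4`.
-/
import Mathlib
import Fermat.Agent.S27x.G2bCov.Emb
import Fermat.Agent.S27x.G2bCov.ChartHypBelyi
import Fermat.Agent.S27x.G2b.Haupt4

set_option autoImplicit false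

open Polynomial IntermediateField UpperHalfPlane CongruenceSubgroup
open scoped MatrixGroups

namespace Fermat.Agent.S27x.G2bCov

open Fermat.Agent.S24 Fermat.Agent.S27x.G2b

/-- The level four Hauptmodul is not constant (its stabiliser is contained in `Γ₀(4)`). -/
theorem t4_not_const : ¬ ∃ c : ℂ, ∀ τ, (t4 : ℍ → ℂ) τ = c := by
  rintro ⟨c, hc⟩
  have h1 : ModularGroup.S • t4 = t4 := by
    ext τ
    rw [HolFun.sl_smul_apply, hc, hc]
  have h2 := mem_Gamma0_of_smul_t4 h1
  rw [Gamma0_mem] at h2
  have h3 : (ModularGroup.S 1 0 : ℤ) = 1 := by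
    simp [ModularGroup.S]
  rw [h3] at h2
  exact absurd h2 (by decide)

variable {K F : Type*} [Field K] [Field F] [Algebra K F] [IsAlgClosed K] [CharZero K]

/-- **`EmbOut` via the covering route.** -/
theorem exists_emb_t4 (ι : K →+* ℂ) {β : F} (hβ : Transcendental K β)
    [FiniteDimensional K⟮β⟯ F] (h : G2b.IsBelyiUnram K β) :
    ∃ emb : F →+* MerFun,
      (∀ c : K, emb (algebraMap K F c) = algebraMap HolFun MerFun (algebraMap ℂ HolFun (ι c))) ∧
      emb β = algebraMap HolFun MerFun t4 := by
  classical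
  let _ : Algebra K[X] F := (aeval β : K[X] →ₐ[K] F).toRingHom.toAlgebra
  have halg : ∀ p : K[X], algebraMap K[X] F p = aeval β p := fun _ => rfl
  have tKPF : IsScalarTower K K[X] F := IsScalarTower.of_algebraMap_eq fun a => by
    rw [halg, Polynomial.algebraMap_apply, aeval_C]
    rfl
  have hinj : Function.Injective (algebraMap K[X] F) := transcendental_iff_injective.mp hβ
  let _ := algebraPolyAdjoin (K := K) β
  have := isFractionRing_polyAdjoin hβ
  have tPLF : IsScalarTower K[X] K⟮β⟯ F := IsScalarTower.of_algebraMap_eq fun p => by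
    rw [halg]
    exact (coe_algebraMap_polyAdjoin β p).symm
  have halg' : Algebra.IsAlgebraic K[X] F :=
    (IsFractionRing.comap_isAlgebraic_iff (A := K[X]) (K := K⟮β⟯) (C := F)).2 inferInstance
  have hch : ChartHyp (F := F) ι := chartHyp_of_isBelyiUnram hβ halg h ι
  obtain ⟨emb, hconst, hX, -⟩ := exists_emb hinj halg' hch t4
    (fun τ => ⟨t4_ne_zero τ, t4_ne_sixteen τ⟩) (exists_eval_ne_zero t4 t4_not_const)
  refine ⟨emb, hconst, ?_⟩
  rw [← hX, halg, aeval_X]

end Fermat.Agent.S27x.G2bCov
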